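import Fermat.Agent.S59.TW.H54.Anemic
import Fermat.Agent.S59.TW.H564.TwistIter

/-!
# TW-NS, anemic multi-prime form (helper54): iterated twists are `q²`-new at every twisted prime

Vocabulary of helper564 (`H564.twistL`, `chiL`) and of helper658's `TwistDatum`
(`S59/TW/H658/TwistDatum.lean`: the hypotheses below are its fields, verbatim).

* `twist_comm_h54`, `twistL_eq_twist_erase_h54` : twists at different moduli commute, so
  `twistL ψ L f = twist q₀ (ψ q₀) (twistL ψ (L.erase q₀) f)` for `q₀ ∈ L`;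
* `heckeU_twistL_self_h54`, `heckeU_fricke_twistL_h54` : `U_{q₀}` kills `F = twistL ψ L f` and
  `F ∣ W_{N'}` (`q₀ ∈ L`, `ψ q₀ ≠ 1`, `q₀² ∥ N'`);
* `twistL_anemic_exists_newform` : if moreover `F ≠ 0` is an eigenvector of the GOOD Hecke
  operators `T_ℓ` (`ℓ ∤ N'`, `ℓ ∉ S`) with eigenvalues `lam ℓ`, then there is a Prelude-newform `g`
  of level `M₁ ∣ N'` with `v_{q₀}(M₁) = 2` and `a_ℓ(g) = lam ℓ`: the frozen statement S36 applies
  to the eigensystem `lam` at `q₀`.  No normalisation, no eigen-property at the bad primes.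
-/

set_option autoImplicit false
set_option linter.unusedSectionVars false
set_option linter.unusedVariables false
set_option linter.style.haveILetI false

namespace Fermat.Agent.S59.TW.H54

open Matrix Matrix.SpecialLinearGroup CongruenceSubgroup UpperHalfPlane ModularForm
open Fermat.Agent.Lib.Newform.H803 Fermat.Agent.S59.TW.H564
open Fermat.Agent.Lib.Newform.H958.X ModularFormClass
open scoped MatrixGroups ModularForm

variable {k : ℤ}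

/-! ## Twists commute -/

theorem shift_sum_h54 {q : ℕ} [NeZero q] {ι : Type*} (s : Finset ι) (g : ι → ℍ → ℂ)
    (u : ZMod q) : shift k q (∑ i ∈ s, g i) u = ∑ i ∈ s, shift k q (g i) u := by
  unfold shift
  rw [SlashAction.sum_slash]

theorem shift_comm_h54 {q q' : ℕ} [NeZero q] [NeZero q'] (f : ℍ → ℂ) (u : ZMod q)
    (v : ZMod q') : shift k q (shift k q' f v) u = shift k q' (shift k q f u) v := by
  unfold shift
  rw [← slash_tr_add, ← slash_tr_add, add_comm]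

theorem twist_comm_h54 {q q' : ℕ} [NeZero q] [NeZero q'] (ψ : DirichletCharacter ℂ q)
    (ψ' : DirichletCharacter ℂ q') (f : ℍ → ℂ) :
    twist k q ψ (twist k q' ψ' f) = twist k q' ψ' (twist k q ψ f) := by
  unfold twist
  simp only [shift_sum_h54, shift_smul, Finset.smul_sum]
  rw [Finset.sum_comm]
  refine Finset.sum_congr rfl fun v _ => Finset.sum_congr rfl fun u _ => ?_
  rw [shift_comm_h54, smul_comm]

theorem twist'_comm_h54 {q q' : ℕ} (ψ : DirichletCharacter ℂ q)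
    (ψ' : DirichletCharacter ℂ q') (f : ℍ → ℂ) :
    twist' k q ψ (twist' k q' ψ' f) = twist' k q' ψ' (twist' k q ψ f) := by
  rcases eq_or_ne q 0 with h | h
  · simp only [twist', dif_pos h]
  rcases eq_or_ne q' 0 with h' | h'
  · simp only [twist', dif_pos h']
  haveI : NeZero q := ⟨h⟩
  haveI : NeZero q' := ⟨h'⟩
  simp only [twist'_eq]
  exact twist_comm_h54 ψ ψ' f

theorem twistL_twist'_h54 (ψ : (q : ℕ) → DirichletCharacter ℂ q) (L : List ℕ) {q : ℕ}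
    (ψq : DirichletCharacter ℂ q) (f : ℍ → ℂ) :
    twistL k ψ L (twist' k q ψq f) = twist' k q ψq (twistL k ψ L f) := by
  induction L generalizing f with
  | nil => rfl
  | cons a L ih =>
    rw [twistL_cons, twistL_cons, twist'_comm_h54, ih]

/-- For `q₀ ∈ L`: `twistL ψ L f = twist' q₀ (ψ q₀) (twistL ψ (L.erase q₀) f)`. -/
theorem twistL_eq_twist_erase_h54 (ψ : (q : ℕ) → DirichletCharacter ℂ q) (L : List ℕ)
    {q₀ : ℕ} (hq₀ : q₀ ∈ L) (f : ℍ → ℂ) :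
    twistL k ψ L f = twist' k q₀ (ψ q₀) (twistL k ψ (L.erase q₀) f) := by
  induction L generalizing f with
  | nil => simp at hq₀
  | cons a L ih =>
    by_cases ha : a = q₀
    · subst ha
      rw [List.erase_cons_head, twistL_cons, twistL_twist'_h54]
    · have hq₀L : q₀ ∈ L := by
        rcases List.mem_cons.mp hq₀ with h | h
        · exact absurd h.symm ha
        · exact h
      rw [List.erase_cons_tail (by simpa using ha), twistL_cons, twistL_cons, ih hq₀L]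

/-! ## The nebentypus of the partial twist -/

theorem chiL_erase_h54 (ψ : (q : ℕ) → DirichletCharacter ℂ q) (χ : ℤ → ℂ) (L : List ℕ)
    {q₀ : ℕ} (hq₀ : q₀ ∈ L) (d : ℤ) :
    chiL ψ χ (L.erase q₀) d * ψ q₀ ((d : ℤ) : ZMod q₀) ^ 2 = chiL ψ χ L d := by
  rw [chiL_apply, chiL_apply, mul_assoc]
  congr 1
  rw [mul_comm]
  exact List.prod_map_erase (fun q => ψ q ((d : ℤ) : ZMod q) ^ 2) hq₀

theorem isCoprime_of_mem_Gamma0_h54 {N : ℕ} {γ : SL(2, ℤ)} (hγ : γ ∈ Gamma0 N) :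
    IsCoprime (γ 1 1) (N : ℤ) := by
  obtain ⟨c, hc⟩ := mem_Gamma0_iff_dvd.mp hγ
  have hdet := Matrix.SpecialLinearGroup.det_coe γ
  rw [Matrix.det_fin_two] at hdet
  refine ⟨γ 0 0, -(γ 0 1 * c), ?_⟩
  rw [hc] at hdet
  linear_combination hdet

/-! ## The main theorem -/

section Main

variable {M : ℕ} {χ : ℤ → ℂ} {f : ℍ → ℂ}

/-- The data of the partial twist `f' = twistL ψ (L.erase q₀) f` at the level `N q₀`,
`N' = N q₀²`. -/
theorem partial_twist_data_h54 (ψ : (q : ℕ) → DirichletCharacter ℂ q) (L : List ℕ)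
    (hL : ∀ q ∈ L, q.Prime ∧ ∃ M' : ℕ, M = M' * q ∧ Nat.Coprime M' q)
    (hχ : IsCharMod M χ) (hf : IsNeb k M χ f) {q₀ : ℕ} (hq₀ : q₀ ∈ L) {N : ℕ}
    (hdvd : M * L.prod ∣ N * q₀ * q₀)
    (htriv : ∀ d : ℤ, IsCoprime d ((N * q₀ * q₀ : ℕ) : ℤ) → chiL ψ χ L d = 1) :
    IsCharMod (N * q₀) (chiL ψ χ (L.erase q₀)) ∧
      IsNeb k (N * q₀) (chiL ψ χ (L.erase q₀)) (twistL k ψ (L.erase q₀) f) ∧
      NebRelH54 N q₀ (chiL ψ χ (L.erase q₀)) (ψ q₀) := by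
  have hq₀p : q₀.Prime := (hL q₀ hq₀).1
  have hL' : ∀ q ∈ L.erase q₀, q ≠ 0 ∧ q ∣ M := fun q hq => by
    obtain ⟨hp, M', hM, -⟩ := hL q (List.mem_of_mem_erase hq)
    exact ⟨hp.ne_zero, ⟨M', by rw [hM, mul_comm]⟩⟩
  obtain ⟨h1, h2⟩ := isNeb_twistL (k := k) (ψ := ψ) (L.erase q₀) hL' hχ hf
  -- the level
  have hlev : M * (L.erase q₀).prod ∣ N * q₀ := by
    have hprod : q₀ * (L.erase q₀).prod = L.prod := List.prod_erase hq₀
    have h3 : M * (L.erase q₀).prod * q₀ ∣ N * q₀ * q₀ := by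
      have : M * (L.erase q₀).prod * q₀ = M * L.prod := by rw [← hprod]; ring
      rw [this]
      exact hdvd
    exact Nat.dvd_of_mul_dvd_mul_right hq₀p.pos h3
  have hlevZ : ((M * (L.erase q₀).prod : ℕ) : ℤ) ∣ ((N * q₀ : ℕ) : ℤ) :=
    Int.natCast_dvd_natCast.mpr hlev
  refine ⟨⟨h1.one, fun d d' hdd' => h1.periodic d d' (hlevZ.trans hdd')⟩, ?_, ?_⟩
  · intro γ hγ
    apply h2 γ
    rw [mem_Gamma0_iff_dvd] at hγ ⊢
    exact hlevZ.trans hγ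
  · intro γ hγ
    rw [chiL_erase_h54 ψ χ L hq₀]
    apply htriv
    have hc := isCoprime_of_mem_Gamma0_h54 hγ
    have hc' : IsCoprime (γ 1 1) ((q₀ : ℕ) : ℤ) := by
      push_cast at hc
      exact hc.of_mul_right_right
    push_cast at hc ⊢
    exact hc.mul_right hc'

/-- `U_{q₀}` kills the iterated twist (`q₀ ∈ L`, `ψ q₀ ≠ 1`). -/
theorem heckeU_twistL_self_h54 (ψ : (q : ℕ) → DirichletCharacter ℂ q) (L : List ℕ)
    (hL : ∀ q ∈ L, q.Prime ∧ ∃ M' : ℕ, M = M' * q ∧ Nat.Coprime M' q)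
    (hχ : IsCharMod M χ) (hf : IsNeb k M χ f) {q₀ : ℕ} (hq₀ : q₀ ∈ L) (hψ : ψ q₀ ≠ 1) :
    heckeU k q₀ (twistL k ψ L f) = 0 := by
  have hq₀p : q₀.Prime := (hL q₀ hq₀).1
  haveI : NeZero q₀ := ⟨hq₀p.ne_zero⟩
  haveI : Fact q₀.Prime := ⟨hq₀p⟩
  have hL' : ∀ q ∈ L.erase q₀, q ≠ 0 ∧ q ∣ M := fun q hq => by
    obtain ⟨hp, M', hM, -⟩ := hL q (List.mem_of_mem_erase hq)
    exact ⟨hp.ne_zero, ⟨M', by rw [hM, mul_comm]⟩⟩
  obtain ⟨h1, h2⟩ := isNeb_twistL (k := k) (ψ := ψ) (L.erase q₀) hL' hχ hf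
  rw [twistL_eq_twist_erase_h54 ψ L hq₀, twist'_eq]
  exact heckeU_twist_self hψ (h2.isPer h1)

/-- `U_{q₀}` kills the Fricke transform of the iterated twist (`q₀ ∈ L`, `ψ q₀ ≠ 1`,
`q₀² ∥ N'`, `N' = N q₀²`). -/
theorem heckeU_fricke_twistL_h54 (ψ : (q : ℕ) → DirichletCharacter ℂ q) (L : List ℕ)
    (hL : ∀ q ∈ L, q.Prime ∧ ∃ M' : ℕ, M = M' * q ∧ Nat.Coprime M' q)
    (hχ : IsCharMod M χ) (hf : IsNeb k M χ f) {q₀ : ℕ} (hq₀ : q₀ ∈ L) (hψ : ψ q₀ ≠ 1)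
    {N : ℕ} [NeZero (N * q₀ * q₀)] (hNq : ¬ q₀ ∣ N)
    (hdvd : M * L.prod ∣ N * q₀ * q₀)
    (htriv : ∀ d : ℤ, IsCoprime d ((N * q₀ * q₀ : ℕ) : ℤ) → chiL ψ χ L d = 1)
    (hinv : SlInv k (Gamma0 (N * q₀ * q₀)) (twistL k ψ L f)) :
    heckeU k q₀ ((twistL k ψ L f) ∣[k] frickeMatrix (N * q₀ * q₀)) = 0 := by
  have hq₀p : q₀.Prime := (hL q₀ hq₀).1
  haveI : NeZero q₀ := ⟨hq₀p.ne_zero⟩
  haveI : Fact q₀.Prime := ⟨hq₀p⟩
  obtain ⟨h1, h2, h3⟩ := partial_twist_data_h54 (k := k) ψ L hL hχ hf hq₀ hdvd htriv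
  have hNz : (N : ZMod q₀) ≠ 0 := fun h => hNq ((ZMod.natCast_eq_zero_iff N q₀).mp h)
  have htr := twist_trace_zero hNz h1 hψ h3 h2
  apply heckeU_fricke_eq_zero_h54 hinv
  rw [twistL_eq_twist_erase_h54 ψ L hq₀, twist'_eq]
  exact htr

/-- **TW-NS, anemic multi-prime form.**  Hypotheses = the fields of helper658's `TwistDatum`
(with `χ = chiZ ε`) + `q₀ ∈ L`, `q₀² ∥ N'` + "`F = twistL ψ L f ≠ 0` is an eigenvector of the
good Hecke operators".  Conclusion: a Prelude-newform of level `M₁ ∣ N'`, `v_{q₀}(M₁) = 2`, with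
the same good eigenvalues. -/
theorem twistL_anemic_exists_newform (ψ : (q : ℕ) → DirichletCharacter ℂ q) (L : List ℕ)
    (hL : ∀ q ∈ L, q.Prime ∧ ∃ M' : ℕ, M = M' * q ∧ Nat.Coprime M' q)
    (hχ : IsCharMod M χ) {N' : ℕ} [NeZero N'] (hdvd : M * L.prod ∣ N')
    (htriv : ∀ d : ℤ, IsCoprime d (N' : ℤ) → chiL ψ χ L d = 1)
    {f : ℍ → ℂ} (hf : IsNeb 2 M χ f)
    {q₀ : ℕ} (hq₀ : q₀ ∈ L) (hψ : ψ q₀ ≠ 1) (hv : N'.factorization q₀ = 2)
    (F : CuspForm (Gamma0 N') 2) (hF : (⇑F : ℍ → ℂ) = twistL 2 ψ L f) (hF0 : F ≠ 0)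
    (S : Set ℕ) (lam : ℕ → ℂ)
    (heig : ∀ (ℓ : ℕ) (hℓ : ℓ.Prime) (hℓN : ¬ ℓ ∣ N'), ℓ ∉ S →
      CuspForm.heckeTLin 2 hℓ hℓN F = lam ℓ • F) :
    ∃ (M₁ : ℕ) (_ : NeZero M₁) (g : CuspForm (Gamma0 M₁) 2), g.IsNewform ∧ M₁ ∣ N' ∧
      M₁.factorization q₀ = 2 ∧
      ∀ ℓ : ℕ, ℓ.Prime → ¬ ℓ ∣ N' → ℓ ∉ S → qCoeff g ℓ = lam ℓ := by
  have hq₀p : q₀.Prime := (hL q₀ hq₀).1
  have hN'0 : N' ≠ 0 := NeZero.ne N'
  -- `N' = N q₀²`, `q₀ ∤ N`
  have h2 : q₀ ^ 2 ∣ N' := (hq₀p.pow_dvd_iff_le_factorization hN'0).mpr (le_of_eq hv.symm)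
  obtain ⟨N, hN⟩ := h2
  have hN' : N' = N * q₀ * q₀ := by rw [hN]; ring
  have hNq : ¬ q₀ ∣ N := by
    rintro ⟨N₂, rfl⟩
    have h3 : q₀ ^ 3 ∣ N' := ⟨N₂, by rw [hN]; ring⟩
    have := (hq₀p.pow_dvd_iff_le_factorization hN'0).mp h3
    omega
  subst hN'
  have hinv : SlInv 2 (Gamma0 (N * q₀ * q₀)) (⇑F : ℍ → ℂ) := fun γ hγ =>
    SlashInvariantForm.slash_action_eqn F _ (Subgroup.mem_map_of_mem _ hγ)
  have hU : heckeU 2 q₀ (⇑F : ℍ → ℂ) = 0 := by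
    rw [hF]
    exact heckeU_twistL_self_h54 ψ L hL hχ hf hq₀ hψ
  have hUW : heckeU 2 q₀ ((⇑F : ℍ → ℂ) ∣[(2 : ℤ)] frickeMatrix (N * q₀ * q₀)) = 0 := by
    rw [hF] at hinv ⊢
    exact heckeU_fricke_twistL_h54 ψ L hL hχ hf hq₀ hψ hNq hdvd htriv hinv
  exact anemic_exists_newform hq₀p hv S lam F hF0 heig hU hUW

end Main

end Fermat.Agent.S59.TW.H54
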