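import Fermat.Agent.S59.TW.H54.StarComm
import Fermat.Agent.Lib.Newform.H863.GoodEigen

/-!
# TW-NS, anemic form (helper54), part 2: a trace-new ANEMIC eigenvector is `q²`-new

`anemic_exists_newform` : let `q² ∥ C` and let `F ≠ 0` in `S₂(Γ₀(C))` be an eigenvector of the
GOOD Hecke operators only (`T_ℓ F = lam ℓ • F` for the primes `ℓ ∤ C`, `ℓ ∉ S`) with
`U_q F = 0 = U_q (F ∣ W_C)`.  Then there is a Prelude-newform `g` of a level `M ∣ C` with
`v_q(M) = 2` and `a_ℓ(g) = lam ℓ` for all primes `ℓ ∤ C`, `ℓ ∉ S`.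

No normalisation of `F` is needed (`a₁(F)` may vanish): the subspace
`Z = {G | T_ℓ G = lam ℓ • G, U_q G = 0, U_q (G ∣ W_C) = 0}` is stable under the FULL Hecke algebra
(`T_ℓ` commutes with `W_C`, and `U_q` commutes with `W_C⁻¹ U_r W_C` for `r ≠ q`:
`StarComm.lean`), hence contains a simultaneous eigenvector, which is a multiple of a normalized
eigenform in `Z`; part A (`TwistNew.lean`) applies to it.
-/

set_option autoImplicit false
set_option linter.unusedSectionVars false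
set_option linter.deprecated false
set_option linter.unusedVariables false

namespace Fermat.Agent.S59.TW.H54

open Matrix Matrix.SpecialLinearGroup CongruenceSubgroup UpperHalfPlane ModularForm
open Fermat.Agent.Lib.Newform.H803 Fermat.Agent.Lib.Newform.H958.X ModularFormClass
open Fermat.Agent.Lib.Newform
open scoped MatrixGroups ModularForm

variable {C : ℕ} [NeZero C]

/-- The Fricke transform of a cusp form is `Γ₀(C)`-invariant. -/
theorem slInv_fricke_h54 (G : CuspForm (Gamma0 C) 2) :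
    SlInv 2 (Gamma0 C) ((⇑G : ℍ → ℂ) ∣[(2 : ℤ)] frickeMatrix C) := fun γ hγ =>
  SlashInvariantForm.slash_action_eqn (H16.frickeCusp G) _ (Subgroup.mem_map_of_mem _ hγ)

/-- Two elements of the full Hecke algebra commute on every cusp form. -/
theorem heckeAlgebra_comm_apply_h54 (t₁ t₂ : CuspForm.heckeAlgebra C 2 (∅ : Set ℕ))
    (G : CuspForm (Gamma0 C) 2) :
    (t₁ : Module.End ℂ (CuspForm (Gamma0 C) 2)) ((t₂ : Module.End ℂ (CuspForm (Gamma0 C) 2)) G) =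
      (t₂ : Module.End ℂ (CuspForm (Gamma0 C) 2))
        ((t₁ : Module.End ℂ (CuspForm (Gamma0 C) 2)) G) := by
  have h := congrArg (fun x : CuspForm.heckeAlgebra C 2 (∅ : Set ℕ) =>
    (x : Module.End ℂ (CuspForm (Gamma0 C) 2)) G) (mul_comm t₁ t₂)
  simpa only [MulMemClass.coe_mul, Module.End.mul_apply] using h

/-- `U_q` commutes with every element of the full Hecke algebra, function level. -/
theorem heckeU_comm_h54 {q : ℕ} (hq : q.Prime) (hqC : q ∣ C)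
    (t : CuspForm.heckeAlgebra C 2 (∅ : Set ℕ)) (G : CuspForm (Gamma0 C) 2) :
    heckeU 2 q (⇑((t : Module.End ℂ (CuspForm (Gamma0 C) 2)) G) : ℍ → ℂ) =
      ⇑((t : Module.End ℂ (CuspForm (Gamma0 C) 2)) (CuspForm.heckeULin 2 hqC G)) := by
  have h := heckeAlgebra_comm_apply_h54
    (CuspForm.heckeAlgebra.U hq hqC (Set.notMem_empty _)) t G
  rw [CuspForm.heckeAlgebra.coe_U] at h
  rw [← h]
  rfl

/-- The subspace `Z` of the trace-new anemic eigenvectors. -/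
noncomputable def anemicSubH54 (C : ℕ) [NeZero C] (q : ℕ) (S : Set ℕ) (lam : ℕ → ℂ) :
    Submodule ℂ (CuspForm (Gamma0 C) 2) where
  carrier := {G | G ∈ H863.goodEigenspace C S lam ∧ heckeU 2 q (⇑G : ℍ → ℂ) = 0 ∧
    heckeU 2 q ((⇑G : ℍ → ℂ) ∣[(2 : ℤ)] frickeMatrix C) = 0}
  add_mem' := by
    rintro a b ⟨ha1, ha2, ha3⟩ ⟨hb1, hb2, hb3⟩
    refine ⟨Submodule.add_mem _ ha1 hb1, ?_, ?_⟩
    · rw [CuspForm.coe_add, heckeU_add, ha2, hb2, add_zero]
    · rw [CuspForm.coe_add, SlashAction.add_slash, heckeU_add, ha3, hb3, add_zero]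
  zero_mem' := by
    refine ⟨Submodule.zero_mem _, ?_, ?_⟩
    · rw [CuspForm.coe_zero, heckeU_zero]
    · rw [CuspForm.coe_zero, SlashAction.zero_slash, heckeU_zero]
  smul_mem' := by
    rintro c a ⟨ha1, ha2, ha3⟩
    refine ⟨Submodule.smul_mem _ c ha1, ?_, ?_⟩
    · rw [CuspForm.IsGLPos.coe_smul, heckeU_smul, ha2, smul_zero]
    · rw [CuspForm.IsGLPos.coe_smul, smul_slash_frickeMatrix, heckeU_smul, ha3, smul_zero]

theorem mem_anemicSubH54 {q : ℕ} {S : Set ℕ} {lam : ℕ → ℂ} {G : CuspForm (Gamma0 C) 2} :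
    G ∈ anemicSubH54 C q S lam ↔ G ∈ H863.goodEigenspace C S lam ∧
      heckeU 2 q (⇑G : ℍ → ℂ) = 0 ∧
      heckeU 2 q ((⇑G : ℍ → ℂ) ∣[(2 : ℤ)] frickeMatrix C) = 0 := Iff.rfl

/-- The endomorphisms preserving a submodule, as a `ℤ`-subalgebra. -/
def stabAlgH54 {V : Type*} [AddCommGroup V] [Module ℂ V] (Z : Submodule ℂ V) :
    Subalgebra ℤ (Module.End ℂ V) where
  carrier := {t | ∀ G ∈ Z, t G ∈ Z}
  mul_mem' := fun {a b} ha hb G hG => by
    rw [Module.End.mul_apply]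
    exact ha _ (hb G hG)
  add_mem' := fun {a b} ha hb G hG => by
    rw [LinearMap.add_apply]
    exact Z.add_mem (ha G hG) (hb G hG)
  algebraMap_mem' := fun n G hG => by
    rw [Algebra.algebraMap_eq_smul_one, LinearMap.smul_apply, Module.End.one_apply]
    exact Z.smul_of_tower_mem n hG

/-- **`Z` is stable under the full Hecke algebra.** -/
theorem heckeAlgebra_mapsTo_anemicSubH54 {q : ℕ} (hq : q.Prime) (hqC : q ∣ C) (S : Set ℕ)
    (lam : ℕ → ℂ) (t : CuspForm.heckeAlgebra C 2 (∅ : Set ℕ)) (G : CuspForm (Gamma0 C) 2)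
    (hG : G ∈ anemicSubH54 C q S lam) :
    (t : Module.End ℂ (CuspForm (Gamma0 C) 2)) G ∈ anemicSubH54 C q S lam := by
  have hle : CuspForm.heckeAlgebra C 2 (∅ : Set ℕ) ≤ stabAlgH54 (anemicSubH54 C q S lam) := by
    apply Algebra.adjoin_le
    rintro T (⟨ℓ, hℓ, hℓC, -, rfl⟩ | ⟨r, hrC, hr, -, rfl⟩)
    · -- `T_ℓ`
      rintro G ⟨hG1, hG2, hG3⟩
      refine ⟨?_, ?_, ?_⟩
      · exact H863.heckeAlgebra_mapsTo_goodEigenspace S lam
          (CuspForm.heckeAlgebra.T hℓ hℓC (Set.notMem_empty _)) G hG1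
      · have h := heckeU_comm_h54 hq hqC
          (CuspForm.heckeAlgebra.T hℓ hℓC (Set.notMem_empty _)) G
        rw [CuspForm.heckeAlgebra.coe_T] at h
        rw [h]
        have h0 : CuspForm.heckeULin 2 hqC G = 0 := DFunLike.coe_injective (by
          rw [CuspForm.coe_heckeULin_apply, hG2, CuspForm.coe_zero])
        rw [h0, map_zero, CuspForm.coe_zero]
      · rw [CuspForm.coe_heckeTLin_apply, ← H16.frickeHecke C ℓ hℓ hℓC G]
        have h := heckeU_comm_h54 hq hqC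
          (CuspForm.heckeAlgebra.T hℓ hℓC (Set.notMem_empty _)) (H16.frickeCusp G)
        rw [CuspForm.heckeAlgebra.coe_T, CuspForm.coe_heckeTLin_apply,
          H16.coe_frickeCusp] at h
        rw [h]
        have h0 : CuspForm.heckeULin 2 hqC (H16.frickeCusp G) = 0 := DFunLike.coe_injective (by
          rw [CuspForm.coe_heckeULin_apply, H16.coe_frickeCusp, hG3, CuspForm.coe_zero])
        rw [h0, map_zero, CuspForm.coe_zero]
    · -- `U_r`
      rintro G ⟨hG1, hG2, hG3⟩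
      refine ⟨?_, ?_, ?_⟩
      · exact H863.heckeAlgebra_mapsTo_goodEigenspace S lam
          (CuspForm.heckeAlgebra.U hr hrC (Set.notMem_empty _)) G hG1
      · have h := heckeU_comm_h54 hq hqC
          (CuspForm.heckeAlgebra.U hr hrC (Set.notMem_empty _)) G
        rw [CuspForm.heckeAlgebra.coe_U] at h
        rw [h]
        have h0 : CuspForm.heckeULin 2 hqC G = 0 := DFunLike.coe_injective (by
          rw [CuspForm.coe_heckeULin_apply, hG2, CuspForm.coe_zero])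
        rw [h0, map_zero, CuspForm.coe_zero]
      · rw [CuspForm.coe_heckeULin_apply]
        by_cases hqr : q = r
        · subst hqr
          rw [hG2, SlashAction.zero_slash, heckeU_zero]
        · exact heckeU_fricke_heckeU_eq_zero_h54 hq hr hqr hqC hrC (slInv_fricke_h54 G) hG3
  exact hle t.2 G hG

/-- The action of the full Hecke algebra on `Z`. -/
noncomputable def heckeOnAnemicH54 {q : ℕ} (hq : q.Prime) (hqC : q ∣ C) (S : Set ℕ)
    (lam : ℕ → ℂ) :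
    CuspForm.heckeAlgebra C 2 (∅ : Set ℕ) →+* Module.End ℂ (anemicSubH54 C q S lam) where
  toFun t := (t : Module.End ℂ (CuspForm (Gamma0 C) 2)).restrict
    (fun w hw => heckeAlgebra_mapsTo_anemicSubH54 hq hqC S lam t w hw)
  map_one' := by
    ext w
    simp
  map_mul' a b := by
    ext w
    simp [Module.End.mul_apply]
  map_zero' := by
    ext w
    simp
  map_add' a b := by
    ext w
    simp

theorem heckeOnAnemicH54_apply_coe {q : ℕ} (hq : q.Prime) (hqC : q ∣ C) (S : Set ℕ)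
    (lam : ℕ → ℂ) (t : CuspForm.heckeAlgebra C 2 (∅ : Set ℕ))
    (w : anemicSubH54 C q S lam) :
    ((heckeOnAnemicH54 hq hqC S lam t w : anemicSubH54 C q S lam) : CuspForm (Gamma0 C) 2)
      = (t : Module.End ℂ (CuspForm (Gamma0 C) 2)) (w : CuspForm (Gamma0 C) 2) := rfl

/-- A nonzero element of `Z` gives a NORMALIZED eigenform in `Z`. -/
theorem exists_normalized_mem_anemicSubH54 {q : ℕ} (hq : q.Prime) (hqC : q ∣ C) (S : Set ℕ)
    (lam : ℕ → ℂ) (F : CuspForm (Gamma0 C) 2) (hF0 : F ≠ 0)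
    (hF : F ∈ anemicSubH54 C q S lam) :
    ∃ F₁ : CuspForm (Gamma0 C) 2, F₁.IsNormalizedEigenform ∧ F₁ ∈ anemicSubH54 C q S lam := by
  classical
  have := H863.finiteDimensional_cuspForm C
  set W := anemicSubH54 C q S lam with hW
  have : Nontrivial W := ⟨⟨⟨F, hF⟩, 0, fun h0 => hF0 (congrArg Subtype.val h0)⟩⟩
  set ρ := heckeOnAnemicH54 hq hqC S lam with hρ
  have hker : RingHom.ker ρ ≠ ⊤ := by
    intro htop
    have h1 : (1 : CuspForm.heckeAlgebra C 2 (∅ : Set ℕ)) ∈ RingHom.ker ρ :=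
      htop ▸ Submodule.mem_top
    rw [RingHom.mem_ker, map_one] at h1
    have h2 := congrArg (fun e : Module.End ℂ W => e ⟨F, hF⟩) h1
    simp only [Module.End.one_apply, LinearMap.zero_apply] at h2
    exact hF0 (congrArg Subtype.val h2)
  obtain ⟨𝔫, h𝔫max, h𝔫le⟩ := Ideal.exists_le_maximal _ hker
  have : 𝔫.IsPrime := h𝔫max.isPrime
  obtain ⟨g, χ, hg0, hgχ, -⟩ := Fermat.Agent.S49.exists_eigenvector_ker_le' ρ 𝔫 h𝔫le
  have hg0' : (g : CuspForm (Gamma0 C) 2) ≠ 0 := fun h0 => hg0 (Subtype.ext h0)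
  have hgχ' : ∀ t : CuspForm.heckeAlgebra C 2 (∅ : Set ℕ),
      (t : Module.End ℂ (CuspForm (Gamma0 C) 2)) (g : CuspForm (Gamma0 C) 2)
        = χ t • (g : CuspForm (Gamma0 C) 2) := by
    intro t
    have := congrArg Subtype.val (hgχ t)
    simpa [hρ, heckeOnAnemicH54_apply_coe] using this
  -- the eigen-relations at function level
  have hT : ∀ p : ℕ, p.Prime → ¬ p ∣ C →
      ∃ c : ℂ, heckeT 2 p (⇑(g : CuspForm (Gamma0 C) 2) : ℍ → ℂ) =
        c • (⇑(g : CuspForm (Gamma0 C) 2) : ℍ → ℂ) := by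
    intro p hp hpC
    refine ⟨χ (CuspForm.heckeAlgebra.T hp hpC (Set.notMem_empty _)), ?_⟩
    have h1 := congrArg (fun G : CuspForm (Gamma0 C) 2 => (⇑G : ℍ → ℂ))
      (hgχ' (CuspForm.heckeAlgebra.T hp hpC (Set.notMem_empty _)))
    simpa only [CuspForm.heckeAlgebra.coe_T, CuspForm.coe_heckeTLin_apply,
      CuspForm.IsGLPos.coe_smul] using h1
  have hU : ∀ p : ℕ, p.Prime → p ∣ C →
      ∃ c : ℂ, heckeU 2 p (⇑(g : CuspForm (Gamma0 C) 2) : ℍ → ℂ) =
        c • (⇑(g : CuspForm (Gamma0 C) 2) : ℍ → ℂ) := by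
    intro p hp hpC
    refine ⟨χ (CuspForm.heckeAlgebra.U hp hpC (Set.notMem_empty _)), ?_⟩
    have h1 := congrArg (fun G : CuspForm (Gamma0 C) 2 => (⇑G : ℍ → ℂ))
      (hgχ' (CuspForm.heckeAlgebra.U hp hpC (Set.notMem_empty _)))
    simpa only [CuspForm.heckeAlgebra.coe_U, CuspForm.coe_heckeULin_apply,
      CuspForm.IsGLPos.coe_smul] using h1
  -- the first coefficient does not vanish
  have hb1 : qCoeff (⇑(g : CuspForm (Gamma0 C) 2) : ℍ → ℂ) 1 ≠ 0 := fun h1 =>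
    hg0' (H683.eq_zero_of_eigen_of_coeff_one_eq_zero _ hT hU h1)
  set b := qCoeff (⇑(g : CuspForm (Gamma0 C) 2) : ℍ → ℂ) 1 with hb
  refine ⟨b⁻¹ • (g : CuspForm (Gamma0 C) 2), ?_, W.smul_mem _ g.2⟩
  apply H683.isNormalizedEigenform_of_eigen
  · rw [Fermat.Agent.S49.glue_qCoeff_smul]
    exact inv_mul_cancel₀ hb1
  · intro p hp hpC
    obtain ⟨c, hc⟩ := hT p hp hpC
    exact ⟨c, by rw [CuspForm.IsGLPos.coe_smul, heckeT_smul, hc, smul_comm]⟩
  · intro p hp hpC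
    obtain ⟨c, hc⟩ := hU p hp hpC
    exact ⟨c, by rw [CuspForm.IsGLPos.coe_smul, heckeU_smul, hc, smul_comm]⟩

/-- **TW-NS, anemic form.**  A nonzero trace-new eigenvector of the good Hecke operators at a
level `C` with `q² ∥ C` has a newform of level `M ∣ C`, `v_q(M) = 2`. -/
theorem anemic_exists_newform {q : ℕ} (hq : q.Prime) (hC : C.factorization q = 2)
    (S : Set ℕ) (lam : ℕ → ℂ) (F : CuspForm (Gamma0 C) 2) (hF0 : F ≠ 0)
    (heig : ∀ (ℓ : ℕ) (hℓ : ℓ.Prime) (hℓC : ¬ ℓ ∣ C), ℓ ∉ S →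
      CuspForm.heckeTLin 2 hℓ hℓC F = lam ℓ • F)
    (hU : heckeU 2 q (⇑F : ℍ → ℂ) = 0)
    (hUW : heckeU 2 q ((⇑F : ℍ → ℂ) ∣[(2 : ℤ)] frickeMatrix C) = 0) :
    ∃ (M : ℕ) (_ : NeZero M) (g : CuspForm (Gamma0 M) 2), g.IsNewform ∧ M ∣ C ∧
      M.factorization q = 2 ∧
      ∀ ℓ : ℕ, ℓ.Prime → ¬ ℓ ∣ C → ℓ ∉ S → qCoeff g ℓ = lam ℓ := by
  have hqC : q ∣ C := by
    by_contra h
    rw [Nat.factorization_eq_zero_of_not_dvd h] at hC
    omega
  have : NeZero q := ⟨hq.ne_zero⟩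
  obtain ⟨F₁, hF₁, hF₁1, hF₁2, hF₁3⟩ :=
    exists_normalized_mem_anemicSubH54 hq hqC S lam F hF0 ⟨heig, hU, hUW⟩
  have hFq : qCoeff F₁ q = 0 := qCoeff_eq_zero_of_heckeU_h54 hq.ne_zero F₁ hF₁2 q dvd_rfl
  have hF'q : ∀ n : ℕ, q ∣ n → qCoeff (H16.frickeCusp F₁) n = 0 :=
    qCoeff_eq_zero_of_heckeU_h54 hq.ne_zero (H16.frickeCusp F₁)
      (by rw [H16.coe_frickeCusp]; exact hF₁3)
  obtain ⟨M, hM, g, hg, hMC, hMq, hag⟩ := exists_newform_factorization_eq_two hq hC F₁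
    (H16.frickeCusp F₁) hF₁ (H16.coe_frickeCusp F₁) hFq hF'q
  refine ⟨M, hM, g, hg, hMC, hMq, fun ℓ hℓ hℓC hℓS => ?_⟩
  rw [hag ℓ hℓ hℓC]
  -- `a_ℓ(F₁) = lam ℓ`
  have h1 := congrArg (fun G : CuspForm (Gamma0 C) 2 => qCoeff (⇑G : ℍ → ℂ) 1)
    (hF₁1 ℓ hℓ hℓC hℓS)
  simp only [Fermat.Agent.S49.glue_qCoeff_heckeTLin hℓ hℓC,
    Fermat.Agent.S49.glue_qCoeff_smul] at h1
  have hℓ1 : ¬ ℓ ∣ 1 := fun h => hℓ.one_lt.ne' (Nat.dvd_one.mp h)
  rw [if_neg hℓ1, add_zero, one_mul, hF₁.1, mul_one] at h1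
  exact h1

end Fermat.Agent.S59.TW.H54
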