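import Mathlib.NumberTheory.LSeries.Convolution
import Mathlib.NumberTheory.LSeries.Injectivity
import Mathlib.NumberTheory.LSeries.Linearity

/-!
# TW-NS, formal side (helper54): Dirichlet polynomials in the ring of arithmetic functions

Mathlib-only.  In `𝔸 = ArithmeticFunction ℂ` (Dirichlet convolution):

* `dmH54 d` : the arithmetic function `δ_d`; `dmH54 d * f` is the shift `n ↦ [d ∣ n] f (n / d)`;
* `peH54 A p = A(δ_p)` for a polynomial `A`, with `L`-series `A(p^{-s})`;
* `QFreeH54 q f` : `f` vanishes on the multiples of `q`; closed under `+`, `*`, finite products;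
* `peH54_mul_apply` : coefficient extraction `(A(δ_q) * G)(q^i m) = A_i G(m)` for `G` `q`-free;
* `𝔸` has no zero divisors;
* `eq_of_lseriesHasSum_h54` : two arithmetic functions with the same `L`-series on a half plane
  are equal.
-/

set_option autoImplicit false

open ArithmeticFunction Polynomial

namespace Fermat.Agent.S59.TW.H54

/-- The arithmetic function `δ_d` (zero if `d = 0`). -/
noncomputable def dmH54 (d : ℕ) : ArithmeticFunction ℂ :=
  ⟨fun k => if k = d ∧ d ≠ 0 then 1 else 0, by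
    have : ¬ ((0 : ℕ) = d ∧ d ≠ 0) := fun h => h.2 h.1.symm
    simp [this]⟩

theorem dmH54_apply (d k : ℕ) : dmH54 d k = if k = d ∧ d ≠ 0 then 1 else 0 := rfl

theorem dmH54_apply_self {d : ℕ} (hd : d ≠ 0) : dmH54 d d = 1 := by
  simp [dmH54_apply, hd]

theorem dmH54_apply_of_ne {d k : ℕ} (h : k ≠ d) : dmH54 d k = 0 := by
  simp [dmH54_apply, h]

theorem dmH54_ne_zero {d : ℕ} (hd : d ≠ 0) : dmH54 d ≠ 0 := by
  intro h
  have := dmH54_apply_self hd
  rw [h] at this
  simp at this

/-- `δ_d * f` is the shift of `f` by `d`. -/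
theorem dmH54_mul_apply {d : ℕ} (hd : d ≠ 0) (f : ArithmeticFunction ℂ) (n : ℕ) :
    (dmH54 d * f) n = if d ∣ n then f (n / d) else 0 := by
  classical
  rw [ArithmeticFunction.mul_apply,
    Nat.sum_divisorsAntidiagonal (f := fun a b => dmH54 d a * f b)]
  by_cases hdn : d ∣ n
  · rw [if_pos hdn]
    rcases eq_or_ne n 0 with rfl | hn
    · simp
    · rw [Finset.sum_eq_single d]
      · rw [dmH54_apply_self hd, one_mul]
      · intro b _ hb
        rw [dmH54_apply_of_ne hb, zero_mul]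
      · intro h
        exact absurd (Nat.mem_divisors.mpr ⟨hdn, hn⟩) h
  · rw [if_neg hdn]
    refine Finset.sum_eq_zero fun b hb => ?_
    have hbd : b ≠ d := by
      rintro rfl
      exact hdn (Nat.dvd_of_mem_divisors hb)
    rw [dmH54_apply_of_ne hbd, zero_mul]

theorem dmH54_one : dmH54 1 = 1 := by
  ext n
  rw [dmH54_apply, ArithmeticFunction.one_apply]
  simp

theorem dmH54_mul_dmH54 {a b : ℕ} (ha : a ≠ 0) (hb : b ≠ 0) :
    dmH54 a * dmH54 b = dmH54 (a * b) := by
  ext n
  rw [dmH54_mul_apply ha, dmH54_apply, dmH54_apply]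
  by_cases han : a ∣ n
  · rw [if_pos han]
    obtain ⟨c, rfl⟩ := han
    rw [Nat.mul_div_cancel_left c (Nat.pos_of_ne_zero ha)]
    have h1 : (a * c = a * b ∧ a * b ≠ 0) ↔ (c = b ∧ b ≠ 0) := by
      constructor
      · rintro ⟨h, -⟩
        exact ⟨Nat.eq_of_mul_eq_mul_left (Nat.pos_of_ne_zero ha) h, hb⟩
      · rintro ⟨rfl, -⟩
        exact ⟨rfl, mul_ne_zero ha hb⟩
    by_cases hc : c = b ∧ b ≠ 0
    · rw [if_pos hc, if_pos (h1.mpr hc)]
    · rw [if_neg hc, if_neg (fun h => hc (h1.mp h))]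
  · rw [if_neg han, if_neg]
    rintro ⟨rfl, -⟩
    exact han (dvd_mul_right a b)

theorem dmH54_pow {d : ℕ} (hd : d ≠ 0) (j : ℕ) : dmH54 d ^ j = dmH54 (d ^ j) := by
  induction j with
  | zero => rw [pow_zero, pow_zero, dmH54_one]
  | succ j ih => rw [pow_succ, ih, dmH54_mul_dmH54 (pow_ne_zero j hd) hd, pow_succ]

/-- The `L`-series of `δ_d` is `d^{-s}`. -/
theorem lseriesHasSum_dmH54 {d : ℕ} (hd : d ≠ 0) (s : ℂ) :
    LSeriesHasSum (⇑(dmH54 d)) s ((d : ℂ) ^ (-s)) := by
  unfold LSeriesHasSum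
  have h0 : ∀ n : ℕ, n ≠ d → LSeries.term (⇑(dmH54 d)) s n = 0 := by
    intro n hn
    rw [LSeries.term_def]
    split_ifs
    · rfl
    · rw [dmH54_apply_of_ne hn, zero_div]
  have h1 : LSeries.term (⇑(dmH54 d)) s d = (d : ℂ) ^ (-s) := by
    rw [LSeries.term_def, if_neg hd, dmH54_apply_self hd, Complex.cpow_neg, one_div]
  rw [← h1]
  exact hasSum_single d h0

/-! ### Dirichlet polynomials -/

/-- `A(δ_p)` for a polynomial `A`. -/
noncomputable def peH54 (A : ℂ[X]) (p : ℕ) : ArithmeticFunction ℂ := Polynomial.aeval (dmH54 p) A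

theorem peH54_mul (A B : ℂ[X]) (p : ℕ) : peH54 (A * B) p = peH54 A p * peH54 B p := by
  unfold peH54
  rw [map_mul]

theorem peH54_eq_sum {A : ℂ[X]} {p : ℕ} (hp : p ≠ 0) {n : ℕ} (hn : A.natDegree < n) :
    peH54 A p = ∑ i ∈ Finset.range n, A.coeff i • dmH54 (p ^ i) := by
  unfold peH54
  rw [Polynomial.aeval_eq_sum_range' hn]
  refine Finset.sum_congr rfl fun i _ => ?_
  rw [dmH54_pow hp]

theorem coe_sum_h54 {ι : Type*} (S : Finset ι) (f : ι → ArithmeticFunction ℂ) :
    (⇑(∑ i ∈ S, f i) : ℕ → ℂ) = ∑ i ∈ S, ⇑(f i) := by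
  classical
  induction S using Finset.induction_on with
  | empty =>
    funext n
    simp
  | insert a S ha ih =>
    rw [Finset.sum_insert ha, Finset.sum_insert ha, ← ih]
    funext n
    simp

theorem natCast_pow_cpow_neg_h54 (p i : ℕ) (s : ℂ) :
    (((p ^ i : ℕ) : ℂ)) ^ (-s) = ((p : ℂ) ^ (-s)) ^ i := by
  induction i with
  | zero => simp
  | succ i ih =>
    rw [pow_succ, Nat.cast_mul, Complex.natCast_mul_natCast_cpow, ih, pow_succ]

/-- The `L`-series of `A(δ_p)` is `A(p^{-s})`. -/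
theorem lseriesHasSum_peH54 (A : ℂ[X]) {p : ℕ} (hp : p ≠ 0) (s : ℂ) :
    LSeriesHasSum (⇑(peH54 A p)) s (A.eval ((p : ℂ) ^ (-s))) := by
  rw [peH54_eq_sum hp (Nat.lt_succ_self _), coe_sum_h54, Polynomial.eval_eq_sum_range]
  refine LSeriesHasSum.sum fun i _ => ?_
  have h := (lseriesHasSum_dmH54 (pow_ne_zero i hp) s).smul (A.coeff i)
  rw [natCast_pow_cpow_neg_h54] at h
  exact h

/-! ### `q`-free arithmetic functions -/

/-- `f` vanishes on the multiples of `q`. -/
def QFreeH54 (q : ℕ) (f : ArithmeticFunction ℂ) : Prop := ∀ n : ℕ, q ∣ n → f n = 0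

theorem QFreeH54.zero (q : ℕ) : QFreeH54 q 0 := fun _ _ => rfl

theorem QFreeH54.add {q : ℕ} {f g : ArithmeticFunction ℂ} (hf : QFreeH54 q f)
    (hg : QFreeH54 q g) : QFreeH54 q (f + g) := by
  intro n hn
  rw [ArithmeticFunction.add_apply, hf n hn, hg n hn, add_zero]

theorem QFreeH54.smul {q : ℕ} (c : ℂ) {f : ArithmeticFunction ℂ} (hf : QFreeH54 q f) :
    QFreeH54 q (c • f) := by
  intro n hn
  rw [ArithmeticFunction.smul_map, hf n hn, smul_zero]

theorem QFreeH54.mul {q : ℕ} (hq : q.Prime) {f g : ArithmeticFunction ℂ} (hf : QFreeH54 q f)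
    (hg : QFreeH54 q g) : QFreeH54 q (f * g) := by
  intro n hn
  rw [ArithmeticFunction.mul_apply]
  refine Finset.sum_eq_zero fun x hx => ?_
  have hx' := (Nat.mem_divisorsAntidiagonal.mp hx).1
  rw [← hx'] at hn
  rcases (Nat.Prime.dvd_mul hq).mp hn with h | h
  · rw [hf _ h, zero_mul]
  · rw [hg _ h, mul_zero]

theorem QFreeH54.one {q : ℕ} (hq : q.Prime) : QFreeH54 q 1 := by
  intro n hn
  rw [ArithmeticFunction.one_apply, if_neg]
  rintro rfl
  exact hq.one_lt.ne' (Nat.dvd_one.mp hn)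

theorem QFreeH54.dm {q d : ℕ} (hqd : ¬ q ∣ d) : QFreeH54 q (dmH54 d) := by
  intro n hn
  rw [dmH54_apply_of_ne]
  rintro rfl
  exact hqd hn

theorem QFreeH54.sum {q : ℕ} {ι : Type*} (S : Finset ι) (f : ι → ArithmeticFunction ℂ)
    (h : ∀ i ∈ S, QFreeH54 q (f i)) : QFreeH54 q (∑ i ∈ S, f i) := by
  classical
  induction S using Finset.induction_on with
  | empty => simpa using QFreeH54.zero q
  | insert a S ha ih =>
    rw [Finset.sum_insert ha]
    exact (h a (Finset.mem_insert_self a S)).add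
      (ih fun i hi => h i (Finset.mem_insert_of_mem hi))

theorem QFreeH54.prod {q : ℕ} (hq : q.Prime) {ι : Type*} (S : Finset ι)
    (f : ι → ArithmeticFunction ℂ) (h : ∀ i ∈ S, QFreeH54 q (f i)) :
    QFreeH54 q (∏ i ∈ S, f i) := by
  classical
  induction S using Finset.induction_on with
  | empty => simpa using QFreeH54.one hq
  | insert a S ha ih =>
    rw [Finset.prod_insert ha]
    exact (h a (Finset.mem_insert_self a S)).mul hq
      (ih fun i hi => h i (Finset.mem_insert_of_mem hi))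

theorem QFreeH54.pe {q p : ℕ} (hq : q.Prime) (hp : p.Prime) (hpq : p ≠ q) (A : ℂ[X]) :
    QFreeH54 q (peH54 A p) := by
  rw [peH54_eq_sum hp.ne_zero (Nat.lt_succ_self _)]
  refine QFreeH54.sum _ _ fun i _ => QFreeH54.smul _ (QFreeH54.dm ?_)
  intro h
  exact hpq ((Nat.prime_dvd_prime_iff_eq hq hp).mp (hq.dvd_of_dvd_pow h)).symm

/-- An arithmetic function which is `q`-free and vanishes off the multiples of `q` is zero. -/
theorem QFreeH54.eq_zero {q : ℕ} {f : ArithmeticFunction ℂ} (hf : QFreeH54 q f)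
    (h : ∀ m : ℕ, ¬ q ∣ m → f m = 0) : f = 0 := by
  ext n
  by_cases hn : q ∣ n
  · exact hf n hn
  · exact h n hn

/-! ### Coefficient extraction -/

theorem dmH54_pow_mul_apply {q : ℕ} (hq : q.Prime) {G : ArithmeticFunction ℂ}
    (hG : QFreeH54 q G) {m : ℕ} (hm : ¬ q ∣ m) (i j : ℕ) :
    (dmH54 (q ^ j) * G) (q ^ i * m) = if j = i then G m else 0 := by
  rw [dmH54_mul_apply (pow_ne_zero j hq.ne_zero)]
  rcases lt_trichotomy j i with hji | rfl | hij
  · rw [if_neg hji.ne]
    obtain ⟨k, rfl⟩ := Nat.exists_eq_add_of_lt hji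
    have h1 : q ^ (j + k + 1) * m = q ^ j * (q * (q ^ k * m)) := by ring
    rw [h1, if_pos (dvd_mul_right _ _),
      Nat.mul_div_cancel_left _ (pow_pos hq.pos j)]
    exact hG _ (dvd_mul_right q _)
  · rw [if_pos rfl, if_pos (dvd_mul_right _ _), Nat.mul_div_cancel_left _ (pow_pos hq.pos j)]
  · rw [if_neg hij.ne', if_neg]
    intro h
    obtain ⟨k, rfl⟩ := Nat.exists_eq_add_of_lt hij
    have h1 : q ^ (i + k + 1) = q ^ i * (q * q ^ k) := by ring
    rw [h1] at h
    have h2 := Nat.dvd_of_mul_dvd_mul_left (pow_pos hq.pos i) h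
    exact hm ((dvd_mul_right q _).trans h2)

/-- **Coefficient extraction**: `(A(δ_q) * G)(q^i m) = A_i G(m)` for `G` `q`-free, `q ∤ m`. -/
theorem peH54_mul_apply {q : ℕ} (hq : q.Prime) (A : ℂ[X]) {G : ArithmeticFunction ℂ}
    (hG : QFreeH54 q G) {m : ℕ} (hm : ¬ q ∣ m) (i : ℕ) :
    (peH54 A q * G) (q ^ i * m) = A.coeff i * G m := by
  classical
  have hn : A.natDegree < max A.natDegree i + 1 :=
    Nat.lt_succ_of_le (le_max_left _ _)
  rw [peH54_eq_sum hq.ne_zero hn, Finset.sum_mul]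
  have hcoe : ∀ S : Finset ℕ, (∑ j ∈ S, A.coeff j • dmH54 (q ^ j) * G) (q ^ i * m) =
      ∑ j ∈ S, A.coeff j * (dmH54 (q ^ j) * G) (q ^ i * m) := by
    intro S
    induction S using Finset.induction_on with
    | empty => simp
    | insert a S ha ih =>
      rw [Finset.sum_insert ha, Finset.sum_insert ha, ArithmeticFunction.add_apply, ih,
        smul_mul_assoc, ArithmeticFunction.smul_map, smul_eq_mul]
  rw [hcoe]
  rw [Finset.sum_eq_single i]
  · rw [dmH54_pow_mul_apply hq hG hm, if_pos rfl]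
  · intro j _ hj
    rw [dmH54_pow_mul_apply hq hG hm, if_neg hj, mul_zero]
  · intro h
    exact absurd (Finset.mem_range.mpr (Nat.lt_succ_of_le (le_max_right _ _))) h

/-! ### No zero divisors -/

theorem mul_ne_zero_h54 {f g : ArithmeticFunction ℂ} (hf : f ≠ 0) (hg : g ≠ 0) : f * g ≠ 0 := by
  classical
  have hf' : ∃ n, f n ≠ 0 := by
    by_contra h
    push Not at h
    exact hf (ArithmeticFunction.ext h)
  have hg' : ∃ n, g n ≠ 0 := by
    by_contra h
    push Not at h
    exact hg (ArithmeticFunction.ext h)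
  set a := Nat.find hf' with ha
  set b := Nat.find hg' with hb
  have hfa : f a ≠ 0 := Nat.find_spec hf'
  have hgb : g b ≠ 0 := Nat.find_spec hg'
  have ha0 : a ≠ 0 := by
    intro h
    rw [h] at hfa
    exact hfa f.map_zero
  have hb0 : b ≠ 0 := by
    intro h
    rw [h] at hgb
    exact hgb g.map_zero
  intro hfg
  have h1 : (f * g) (a * b) = f a * g b := by
    rw [ArithmeticFunction.mul_apply]
    rw [Finset.sum_eq_single (a, b)]
    · rintro ⟨x, y⟩ hx hxy
      have hxy' := (Nat.mem_divisorsAntidiagonal.mp hx).1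
      simp only at hxy'
      by_cases hfx : f x = 0
      · simp [hfx]
      by_cases hgy : g y = 0
      · simp [hgy]
      exfalso
      have hax : a ≤ x := Nat.find_min' hf' hfx
      have hby : b ≤ y := Nat.find_min' hg' hgy
      have hx0 : 0 < x := lt_of_lt_of_le (Nat.pos_of_ne_zero ha0) hax
      rcases eq_or_lt_of_le hax with h | h
      · -- `a = x`, so `b = y`
        have : b = y := by
          have h2 : x * y = x * b := by rw [hxy', ← h]
          exact (Nat.eq_of_mul_eq_mul_left hx0 h2).symm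
        exact hxy (by rw [← h, ← this])
      · have h3 : a * b < x * y :=
          lt_of_lt_of_le (Nat.mul_lt_mul_of_pos_right h (Nat.pos_of_ne_zero hb0))
            (Nat.mul_le_mul_left x hby)
        exact absurd hxy' h3.ne'
    · intro h
      exact absurd (Nat.mem_divisorsAntidiagonal.mpr ⟨rfl, mul_ne_zero ha0 hb0⟩) h
  rw [hfg] at h1
  exact mul_ne_zero hfa hgb h1.symm

theorem prod_ne_zero_h54 {ι : Type*} (S : Finset ι) (f : ι → ArithmeticFunction ℂ)
    (h : ∀ i ∈ S, f i ≠ 0) : ∏ i ∈ S, f i ≠ 0 := by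
  classical
  induction S using Finset.induction_on with
  | empty =>
    rw [Finset.prod_empty, ← dmH54_one]
    exact dmH54_ne_zero one_ne_zero
  | insert a S ha ih =>
    rw [Finset.prod_insert ha]
    exact mul_ne_zero_h54 (h a (Finset.mem_insert_self a S))
      (ih fun i hi => h i (Finset.mem_insert_of_mem hi))

theorem peH54_ne_zero {A : ℂ[X]} (hA : A ≠ 0) {p : ℕ} (hp : p.Prime) : peH54 A p ≠ 0 := by
  intro h
  obtain ⟨i, hi⟩ : ∃ i, A.coeff i ≠ 0 := by
    by_contra hcon
    push Not at hcon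
    exact hA (Polynomial.ext fun n => by simpa using hcon n)
  have h1 := peH54_mul_apply hp A (G := 1) (QFreeH54.one hp) (m := 1)
    (fun h => hp.one_lt.ne' (Nat.dvd_one.mp h)) i
  rw [h, zero_mul, ArithmeticFunction.zero_apply, ArithmeticFunction.one_one, mul_one] at h1
  exact hi h1.symm

/-! ### Products of `L`-series -/

theorem lseriesHasSum_prod_h54 {ι : Type*} (S : Finset ι) (f : ι → ArithmeticFunction ℂ)
    (a : ι → ℂ) (s : ℂ) (h : ∀ i ∈ S, LSeriesHasSum (⇑(f i)) s (a i)) :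
    LSeriesHasSum (⇑(∏ i ∈ S, f i)) s (∏ i ∈ S, a i) := by
  classical
  induction S using Finset.induction_on with
  | empty =>
    rw [Finset.prod_empty, Finset.prod_empty, ← dmH54_one]
    simpa using lseriesHasSum_dmH54 one_ne_zero s
  | insert b S hb ih =>
    rw [Finset.prod_insert hb, Finset.prod_insert hb]
    exact LSeriesHasSum_mul (h b (Finset.mem_insert_self b S))
      (ih fun i hi => h i (Finset.mem_insert_of_mem hi))

/-! ### Injectivity -/

/-- Two arithmetic functions whose `L`-series have the same sum at every `s` with `Re s > 2`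
are equal. -/
theorem eq_of_lseriesHasSum_h54 {u v : ArithmeticFunction ℂ} (val : ℂ → ℂ)
    (hu : ∀ s : ℂ, 2 < s.re → LSeriesHasSum (⇑u) s (val s))
    (hv : ∀ s : ℂ, 2 < s.re → LSeriesHasSum (⇑v) s (val s)) : u = v := by
  have h3 : (2 : ℝ) < ((3 : ℝ) : ℂ).re := by
    rw [Complex.ofReal_re]
    norm_num
  have hau : LSeries.abscissaOfAbsConv (⇑u) < ⊤ :=
    lt_of_le_of_lt (hu _ h3).LSeriesSummable.abscissaOfAbsConv_le (EReal.coe_lt_top _)
  have hav : LSeries.abscissaOfAbsConv (⇑v) < ⊤ :=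
    lt_of_le_of_lt (hv _ h3).LSeriesSummable.abscissaOfAbsConv_le (EReal.coe_lt_top _)
  have hev : (fun x : ℝ => LSeries (⇑u) x) =ᶠ[Filter.atTop] fun x : ℝ => LSeries (⇑v) x := by
    filter_upwards [Filter.eventually_gt_atTop (2 : ℝ)] with x hx
    have hx' : 2 < ((x : ℝ) : ℂ).re := by simpa using hx
    rw [(hu _ hx').LSeries_eq, (hv _ hx').LSeries_eq]
  ext n
  rcases eq_or_ne n 0 with rfl | hn
  · rw [u.map_zero, v.map_zero]
  · exact LSeries.eq_of_LSeries_eventually_eq hau hav hev hn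

end Fermat.Agent.S59.TW.H54
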