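import Fermat.Agent.S59.TW.H54.TwistNS

/-!
# TW-NS, anemic form (helper54), part 1: `U_q` commutes with the adjoint `U_r^*`

For distinct primes `q, r ∣ C` and a `Γ₀(C)`-invariant function `Φ`, the operator
`U_r^* Φ = ∑_{j < r} Φ ∣ [r, 0; -C j, 1]` (the conjugate `W_C⁻¹ U_r W_C` of `U_r` by the Fricke
involution) commutes with `U_q`:

* `fricke_comm_heckeMatrix_h54` : `β_j W_C = W_C [r, 0; -C j, 1]`;
* `heckeU_slash_fricke_h54`     : `(U_r G) ∣ W_C = U_r^* (G ∣ W_C)`;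
* `heckeU_starU_h54`            : `U_q (U_r^* Φ) = U_r^* (U_q Φ)`;
* `heckeU_fricke_heckeU_eq_zero_h54` : `U_q (G ∣ W_C) = 0 → U_q ((U_r G) ∣ W_C) = 0`.

Function level, any weight.
-/

set_option autoImplicit false
set_option linter.unusedSectionVars false
set_option linter.unusedSimpArgs false

namespace Fermat.Agent.S59.TW.H54

open Matrix Matrix.SpecialLinearGroup CongruenceSubgroup UpperHalfPlane ModularForm
open Fermat.Agent.Lib.Newform.H803 Fermat.Agent.Lib.Newform.H923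
open Fermat.Agent.Lib.Newform.H958.X
open scoped MatrixGroups ModularForm

/-- The matrix `[r, 0; -C j, 1]`. -/
noncomputable def starMatH54 (C r : ℕ) (hr : r ≠ 0) (j : ℕ) : GL (Fin 2) ℝ :=
  intGL (r : ℤ) 0 (-((C : ℤ) * (j : ℤ))) 1 (by
    have : ((r : ℤ)) ≠ 0 := by exact_mod_cast hr
    simpa using this)

theorem isInt_starMatH54 (C r : ℕ) (hr : r ≠ 0) (j : ℕ) :
    IsInt (starMatH54 C r hr j) (r : ℤ) 0 (-((C : ℤ) * (j : ℤ))) 1 :=
  isInt_intGL _ _ _ _ _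

/-- `β_j W_C = W_C [r, 0; -C j, 1]`. -/
theorem fricke_comm_heckeMatrix_h54 (C r : ℕ) [NeZero C] (hr : r ≠ 0) (j : ℕ) :
    heckeMatrix r j * frickeMatrix C = frickeMatrix C * starMatH54 C r hr j := by
  refine ((isInt_heckeMatrix hr j).mul (Fermat.Agent.Lib.Newform.H16.isInt_frickeMatrix C)).ext
    ((Fermat.Agent.Lib.Newform.H16.isInt_frickeMatrix C).mul (isInt_starMatH54 C r hr j))
    ?_ ?_ ?_ ?_ <;> ring

/-- The adjoint operator `U_r^* Φ = ∑_{j < r} Φ ∣ [r, 0; -C j, 1]`. -/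
noncomputable def starUH54 (k : ℤ) (C r : ℕ) (hr : r ≠ 0) (Φ : ℍ → ℂ) : ℍ → ℂ :=
  ∑ j ∈ Finset.range r, Φ ∣[k] starMatH54 C r hr j

theorem starUH54_zero (k : ℤ) (C r : ℕ) (hr : r ≠ 0) : starUH54 k C r hr 0 = 0 := by
  unfold starUH54
  simp only [SlashAction.zero_slash, Finset.sum_const_zero]

/-- `(U_r G) ∣ W_C = U_r^* (G ∣ W_C)`. -/
theorem heckeU_slash_fricke_h54 (k : ℤ) (C r : ℕ) [NeZero C] (hr : r ≠ 0) (G : ℍ → ℂ) :
    (heckeU k r G) ∣[k] frickeMatrix C = starUH54 k C r hr (G ∣[k] frickeMatrix C) := by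
  rw [heckeU_def, starUH54, SlashAction.sum_slash]
  refine Finset.sum_congr rfl fun j _ => ?_
  rw [← SlashAction.slash_mul, fricke_comm_heckeMatrix_h54 C r hr j, SlashAction.slash_mul]

/-- **The sandwich relation**: `[r, 0; -C j, 1] β_i = γ β_{i'} [r, 0; -C j', 1]` with `γ ∈ Γ₀(C)`,
if `i r ≡ i'` modulo `q`, `q j' ≡ j` modulo `r` and `C = q r C₁`. -/
theorem starMat_mul_heckeMatrix_h54 {C q r : ℕ} (hq : q ≠ 0) (hr : r ≠ 0) (C₁ : ℕ)
    (hC : C = q * r * C₁) (i i' j j' : ℕ) (e e' : ℤ)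
    (he : (i : ℤ) * r = i' + q * e) (he' : (q : ℤ) * j' = j + r * e') :
    ∃ γ ∈ Gamma0 C, starMatH54 C r hr j * heckeMatrix q i =
      mapGL ℝ γ * (heckeMatrix q i' * starMatH54 C r hr j') := by
  have hi' : (i' : ℤ) = i * r - q * e := by linarith
  have hj : (j : ℤ) = q * j' - r * e' := by linarith
  have hCz : (C : ℤ) = q * r * C₁ := by exact_mod_cast hC
  let a : ℤ := 1 + i * C * j'
  let b : ℤ := e - i * i' * r * C₁ * j'
  let c : ℤ := C * (e' - q * C₁ * i * j * j')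
  let d : ℤ := 1 + C₁ * (j * i' - q * i' * j' - j * i * r + C * j * i * i' * j')
  have hdet : a * d - b * c = 1 := by
    simp only [a, b, c, d]
    rw [hi', hj, hCz]
    ring
  let γ : SL(2, ℤ) := ⟨!![a, b; c, d], by rw [Matrix.det_fin_two_of]; exact hdet⟩
  have hγ : IsInt (mapGL ℝ γ) a b c d := by
    have := isInt_mapGL γ
    simpa [γ] using this
  refine ⟨γ, ?_, ?_⟩
  · rw [mem_Gamma0_iff_dvd]
    have : γ 1 0 = c := by simp [γ]
    rw [this]
    exact ⟨e' - q * C₁ * i * j * j', rfl⟩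
  · refine ((isInt_starMatH54 C r hr j).mul (isInt_heckeMatrix hq i)).ext
      (hγ.mul ((isInt_heckeMatrix hq i').mul (isInt_starMatH54 C r hr j'))) ?_ ?_ ?_ ?_
    · simp only [a, b, c, d, hi', hj, hCz]
      ring
    · simp only [a, b, c, d, hi', hj, hCz]
      ring
    · simp only [a, b, c, d, hi', hj, hCz]
      ring
    · simp only [a, b, c, d, hi', hj, hCz]
      ring

section Comm

variable {k : ℤ} {C q r : ℕ}

/-- **`U_q` commutes with `U_r^*`** on `Γ₀(C)`-invariant functions (`q ≠ r` primes dividing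
`C`). -/
theorem heckeU_starU_h54 (hq : q.Prime) (hr : r.Prime) (hqr : q ≠ r) (hqC : q ∣ C)
    (hrC : r ∣ C) {Φ : ℍ → ℂ} (hΦ : SlInv k (Gamma0 C) Φ) :
    heckeU k q (starUH54 k C r hr.ne_zero Φ) = starUH54 k C r hr.ne_zero (heckeU k q Φ) := by
  classical
  have : Fact q.Prime := ⟨hq⟩
  have : Fact r.Prime := ⟨hr⟩
  have : NeZero q := ⟨hq.ne_zero⟩
  have : NeZero r := ⟨hr.ne_zero⟩
  -- `C = q r C₁`
  have hcop : Nat.Coprime q r := (Nat.coprime_primes hq hr).mpr hqr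
  obtain ⟨C₁, hC₁⟩ : q * r ∣ C := hcop.mul_dvd_of_dvd_of_dvd hqC hrC
  -- units
  have hrq : (r : ZMod q) ≠ 0 := by
    intro h
    have := (ZMod.natCast_eq_zero_iff r q).mp h
    exact hqr ((Nat.prime_dvd_prime_iff_eq hq hr).mp this)
  have hqr' : (q : ZMod r) ≠ 0 := by
    intro h
    have := (ZMod.natCast_eq_zero_iff q r).mp h
    exact hqr ((Nat.prime_dvd_prime_iff_eq hr hq).mp this).symm
  -- the pointwise relation
  have key : ∀ (x : ZMod q) (y : ZMod r),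
      (Φ ∣[k] starMatH54 C r hr.ne_zero y.val) ∣[k] heckeMatrix q x.val =
        (Φ ∣[k] heckeMatrix q (x * (r : ZMod q)).val) ∣[k]
          starMatH54 C r hr.ne_zero (y * (q : ZMod r)⁻¹).val := by
    intro x y
    have h1 : (q : ℤ) ∣ (x.val : ℤ) * r - ((x * (r : ZMod q)).val : ℤ) := by
      rw [← ZMod.intCast_zmod_eq_zero_iff_dvd]
      push_cast
      rw [ZMod.natCast_zmod_val, ZMod.natCast_zmod_val]
      ring
    obtain ⟨e, he⟩ := h1
    have h2 : (r : ℤ) ∣ (q : ℤ) * ((y * (q : ZMod r)⁻¹).val : ℤ) - (y.val : ℤ) := by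
      rw [← ZMod.intCast_zmod_eq_zero_iff_dvd]
      push_cast
      rw [ZMod.natCast_zmod_val, ZMod.natCast_zmod_val]
      field_simp
      ring
    obtain ⟨e', he'⟩ := h2
    obtain ⟨γ, hγ, hmat⟩ := starMat_mul_heckeMatrix_h54 hq.ne_zero hr.ne_zero C₁ hC₁
      x.val (x * (r : ZMod q)).val y.val (y * (q : ZMod r)⁻¹).val e e'
      (by linarith) (by linarith)
    rw [← SlashAction.slash_mul, hmat, SlashAction.slash_mul, ← sl_slash_mapGL, hΦ γ hγ,
      SlashAction.slash_mul]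
  -- both sides as double sums over `ZMod q × ZMod r`
  have hL : heckeU k q (starUH54 k C r hr.ne_zero Φ) =
      ∑ x : ZMod q, ∑ y : ZMod r,
        (Φ ∣[k] starMatH54 C r hr.ne_zero y.val) ∣[k] heckeMatrix q x.val := by
    rw [heckeU_eq_sum_zmod']
    refine Finset.sum_congr rfl fun x _ => ?_
    rw [starUH54, sum_range_eq_sum_zmod' (p := r)
      (fun j => Φ ∣[k] starMatH54 C r hr.ne_zero j), SlashAction.sum_slash]
  have hR : starUH54 k C r hr.ne_zero (heckeU k q Φ) =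
      ∑ y : ZMod r, ∑ x : ZMod q,
        (Φ ∣[k] heckeMatrix q x.val) ∣[k] starMatH54 C r hr.ne_zero y.val := by
    rw [starUH54, sum_range_eq_sum_zmod' (p := r)
      (fun j => (heckeU k q Φ) ∣[k] starMatH54 C r hr.ne_zero j)]
    refine Finset.sum_congr rfl fun y _ => ?_
    rw [heckeU_eq_sum_zmod', SlashAction.sum_slash]
  rw [hL, hR, Finset.sum_comm]
  simp_rw [key]
  -- reindex `y ↦ y q⁻¹`
  have hy : ∀ x : ZMod q, ∑ y : ZMod r,
      (Φ ∣[k] heckeMatrix q (x * (r : ZMod q)).val) ∣[k]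
        starMatH54 C r hr.ne_zero (y * (q : ZMod r)⁻¹).val =
      ∑ y : ZMod r, (Φ ∣[k] heckeMatrix q (x * (r : ZMod q)).val) ∣[k]
        starMatH54 C r hr.ne_zero y.val := fun x =>
    Equiv.sum_comp (Equiv.mulRight₀ ((q : ZMod r)⁻¹) (inv_ne_zero hqr'))
      (fun y : ZMod r => (Φ ∣[k] heckeMatrix q (x * (r : ZMod q)).val) ∣[k]
        starMatH54 C r hr.ne_zero y.val)
  rw [Finset.sum_comm]
  simp_rw [hy]
  -- reindex `x ↦ x r`
  have hx : ∑ x : ZMod q, ∑ y : ZMod r,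
      (Φ ∣[k] heckeMatrix q (x * (r : ZMod q)).val) ∣[k] starMatH54 C r hr.ne_zero y.val =
      ∑ x : ZMod q, ∑ y : ZMod r,
        (Φ ∣[k] heckeMatrix q x.val) ∣[k] starMatH54 C r hr.ne_zero y.val :=
    Equiv.sum_comp (Equiv.mulRight₀ (r : ZMod q) hrq)
      (fun x : ZMod q => ∑ y : ZMod r,
        (Φ ∣[k] heckeMatrix q x.val) ∣[k] starMatH54 C r hr.ne_zero y.val)
  rw [hx, Finset.sum_comm]

/-- If `U_q` kills `G ∣ W_C`, it kills `(U_r G) ∣ W_C` (`q ≠ r` primes dividing `C`). -/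
theorem heckeU_fricke_heckeU_eq_zero_h54 [NeZero C] (hq : q.Prime) (hr : r.Prime) (hqr : q ≠ r)
    (hqC : q ∣ C) (hrC : r ∣ C) {G : ℍ → ℂ}
    (hG : SlInv k (Gamma0 C) (G ∣[k] frickeMatrix C))
    (h0 : heckeU k q (G ∣[k] frickeMatrix C) = 0) :
    heckeU k q ((heckeU k r G) ∣[k] frickeMatrix C) = 0 := by
  rw [heckeU_slash_fricke_h54 k C r hr.ne_zero G, heckeU_starU_h54 hq hr hqr hqC hrC hG, h0,
    starUH54_zero]

end Comm

end Fermat.Agent.S59.TW.H54
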