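import Fermat.Agent.S59.TW.H564.TwistInj

/-!
# TW-NS, part B (helper54): TRACE-ZERO for a twist

`f` with nebentypus `χ` on `Γ₀(N q)`, `q ∤ N` prime, `ψ ≠ 1` a Dirichlet character modulo `q` with
`χ(d) ψ(d)² = 1` (so that `F = twist k q ψ f` is `Γ₀(N q²)`-invariant).  Then

* `heckeU_twist_self` : `U_q F = 0`;
* `twist_trace_zero`  : `∑_{v mod q} F ∣ [1, 0; N q v, 1] = 0`  (the trace of `F` to level `N q`).

Function level, any weight; built on helper564's `twist` (`S59/TW/H564`).  The second statement is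
the coset computation of referee memo `coord/S59-TWALG-referee-helper645.md`, §4.1 (c), organised
so that both cases are instances of helper564's `sandwich` identity.
-/

set_option autoImplicit false
set_option linter.unusedSectionVars false

namespace Fermat.Agent.S59.TW.H54

open Matrix Matrix.SpecialLinearGroup CongruenceSubgroup UpperHalfPlane ModularForm
open Fermat.Agent.Lib.Newform.H803 Fermat.Agent.S59.TW.H564
open scoped MatrixGroups ModularForm

variable {k : ℤ} {N q : ℕ} [NeZero q]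

/-- `tr x * tr (-x) = 1`. -/
theorem tr_mul_tr_neg_h54 (x : ℝ) : tr x * tr (-x) = 1 := by
  rw [← tr_add, add_neg_cancel, tr_zero]

/-- **The sandwich relation for shifts**: if `u - x - u x N w = 0` in `ZMod q`, then
`(f ∣ tr (u/q)) ∣ [1, 0; N w q, 1] = χ(1 - x N w) • f ∣ tr (x/q)`. -/
theorem shift_slash_tL_h54 {χ : ℤ → ℂ} {f : ℍ → ℂ} (hf : IsNeb k (N * q) χ f)
    (u x : ZMod q) (w : ℤ)
    (h : u - x - u * x * (N : ZMod q) * (w : ZMod q) = 0) :
    (shift k q f u) ∣[k] tL ((N : ℤ) * w * q) =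
      χ (1 - (x.val : ℤ) * ((N : ℤ) * w)) • shift k q f x := by
  have hq0 : (q : ℤ) ≠ 0 := by exact_mod_cast NeZero.ne q
  -- the integer `e`
  have hdvd : (q : ℤ) ∣ (u.val : ℤ) + (-(x.val : ℤ)) + (u.val : ℤ) * (-(x.val : ℤ)) *
      ((N : ℤ) * w) := by
    rw [← ZMod.intCast_zmod_eq_zero_iff_dvd]
    push_cast
    rw [ZMod.natCast_zmod_val, ZMod.natCast_zmod_val]
    linear_combination h
  obtain ⟨e, he⟩ := hdvd
  have key := tr_mul_tL_mul_tr (M' := (N : ℤ) * w) hq0 (u.val : ℤ) (-(x.val : ℤ)) e he.symm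
  -- move the last translation to the right hand side
  have key2 : tr (((u.val : ℤ) : ℝ) / ((q : ℤ) : ℝ)) * mapGL ℝ (tL ((N : ℤ) * w * q)) =
      mapGL ℝ (sandwich ((N : ℤ) * w) q (u.val : ℤ) (-(x.val : ℤ)) e he.symm) *
        tr (((x.val : ℤ) : ℝ) / ((q : ℤ) : ℝ)) := by
    have h1 : tr (((-(x.val : ℤ) : ℤ) : ℝ) / ((q : ℤ) : ℝ)) *
        tr (((x.val : ℤ) : ℝ) / ((q : ℤ) : ℝ)) = 1 := by
      rw [← tr_add]
      have : (((-(x.val : ℤ) : ℤ) : ℝ) / ((q : ℤ) : ℝ)) + (((x.val : ℤ) : ℝ) / ((q : ℤ) : ℝ))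
          = 0 := by
        push_cast
        ring
      rw [this, tr_zero]
    rw [← key, mul_assoc (tr (((u.val : ℤ) : ℝ) / ((q : ℤ) : ℝ)) *
      mapGL ℝ (tL ((N : ℤ) * w * q))), h1, mul_one]
  have hcast : ((u.val : ℕ) : ℝ) / (q : ℝ) = (((u.val : ℕ) : ℤ) : ℝ) / (((q : ℕ) : ℤ) : ℝ) := by
    push_cast
    rfl
  have hcastx : ((x.val : ℕ) : ℝ) / (q : ℝ) = (((x.val : ℕ) : ℤ) : ℝ) / (((q : ℕ) : ℤ) : ℝ) := by
    push_cast
    rfl
  have hmem : sandwich ((N : ℤ) * w) q (u.val : ℤ) (-(x.val : ℤ)) e he.symm ∈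
      Gamma0 (N * q) := by
    rw [mem_Gamma0_iff_dvd, sandwich_apply_10]
    exact ⟨w, by push_cast; ring⟩
  rw [shift, shift, sl_slash_mapGL, ← SlashAction.slash_mul, hcast, key2,
    SlashAction.slash_mul, ← sl_slash_mapGL, hf _ hmem, smul_slash_tr, sandwich_apply_11,
    ← hcastx]
  congr 2
  ring

variable [Fact q.Prime]

/-- The nebentypus relation on the `(1,1)`-entries of `Γ₀(N q)`. -/
def NebRelH54 (N q : ℕ) (χ : ℤ → ℂ) (ψ : DirichletCharacter ℂ q) : Prop :=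
  ∀ γ ∈ Gamma0 (N * q), χ (γ 1 1) * ψ ((γ 1 1 : ℤ) : ZMod q) ^ 2 = 1

/-- The sandwich relation, with the nebentypus expressed through `ψ`. -/
theorem shift_slash_tL_psi_h54 {χ : ℤ → ℂ} {ψ : DirichletCharacter ℂ q}
    (hχψ : NebRelH54 N q χ ψ) {f : ℍ → ℂ} (hf : IsNeb k (N * q) χ f)
    (u x : ZMod q) (w : ℤ)
    (h : u - x - u * x * (N : ZMod q) * (w : ZMod q) = 0) :
    (shift k q f u) ∣[k] tL ((N : ℤ) * w * q) =
      (ψ (1 - x * ((N : ZMod q) * (w : ZMod q))) ^ 2)⁻¹ • shift k q f x := by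
  have hq0 : (q : ℤ) ≠ 0 := by exact_mod_cast NeZero.ne q
  have hdvd : (q : ℤ) ∣ (u.val : ℤ) + (-(x.val : ℤ)) + (u.val : ℤ) * (-(x.val : ℤ)) *
      ((N : ℤ) * w) := by
    rw [← ZMod.intCast_zmod_eq_zero_iff_dvd]
    push_cast
    rw [ZMod.natCast_zmod_val, ZMod.natCast_zmod_val]
    linear_combination h
  obtain ⟨e, he⟩ := hdvd
  have hmem : sandwich ((N : ℤ) * w) q (u.val : ℤ) (-(x.val : ℤ)) e he.symm ∈
      Gamma0 (N * q) := by
    rw [mem_Gamma0_iff_dvd, sandwich_apply_10]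
    exact ⟨w, by push_cast; ring⟩
  have h1 := hχψ _ hmem
  rw [sandwich_apply_11] at h1
  have h2 : (((1 + -(x.val : ℤ) * ((N : ℤ) * w) : ℤ)) : ZMod q) =
      1 - x * ((N : ZMod q) * (w : ZMod q)) := by
    push_cast
    rw [ZMod.natCast_zmod_val]
    ring
  rw [h2] at h1
  have h3 : (1 : ℤ) + -(x.val : ℤ) * ((N : ℤ) * w) = 1 - (x.val : ℤ) * ((N : ℤ) * w) := by ring
  rw [h3] at h1
  rw [shift_slash_tL_h54 hf u x w h]
  congr 1
  have hne : ψ (1 - x * ((N : ZMod q) * (w : ZMod q))) ^ 2 ≠ 0 := by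
    intro h0
    rw [h0, mul_zero] at h1
    exact zero_ne_one h1
  exact eq_inv_of_mul_eq_one_left h1

/-- **Case A**: `c = 1 + N u v ≠ 0`. -/
theorem shift_slash_caseA_h54 {χ : ℤ → ℂ} {ψ : DirichletCharacter ℂ q}
    (hχψ : NebRelH54 N q χ ψ) {f : ℍ → ℂ} (hf : IsNeb k (N * q) χ f)
    (u v : ZMod q) (hc : 1 + (N : ZMod q) * u * v ≠ 0) :
    (shift k q f u) ∣[k] tL ((N : ℤ) * (v.val : ℤ) * q) =
      ψ (1 + (N : ZMod q) * u * v) ^ 2 • shift k q f (u / (1 + (N : ZMod q) * u * v)) := by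
  set c := 1 + (N : ZMod q) * u * v with hcdef
  have hv : (((v.val : ℕ) : ℤ) : ZMod q) = v := by
    push_cast
    exact ZMod.natCast_zmod_val v
  have h : u - u / c - u * (u / c) * (N : ZMod q) * (((v.val : ℕ) : ℤ) : ZMod q) = 0 := by
    rw [hv]
    field_simp
    rw [hcdef]
    ring
  rw [shift_slash_tL_psi_h54 hχψ hf u (u / c) (v.val : ℤ) h, hv]
  congr 1
  have h1 : 1 - u / c * ((N : ZMod q) * v) = c⁻¹ := by
    field_simp
    rw [hcdef]
    ring
  rw [h1, ← MulChar.inv_apply', MulChar.inv_apply_eq_inv', inv_pow, inv_inv]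

/-- **Case B**: `1 + N u v = 0`; everything is a multiple of one reference translate. -/
theorem shift_slash_caseB_h54 (hN : (N : ZMod q) ≠ 0) {χ : ℤ → ℂ} {ψ : DirichletCharacter ℂ q}
    (hχψ : NebRelH54 N q χ ψ) {f : ℍ → ℂ} (hf : IsNeb k (N * q) χ f)
    (u v : ZMod q) (hc : 1 + (N : ZMod q) * u * v = 0) :
    (shift k q f u) ∣[k] tL ((N : ℤ) * (v.val : ℤ) * q) =
      (ψ v ^ 2)⁻¹ • (shift k q f (-(N : ZMod q)⁻¹)) ∣[k] tL ((N : ℤ) * 1 * q) := by
  have hv : (((v.val : ℕ) : ℤ) : ZMod q) = v := by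
    push_cast
    exact ZMod.natCast_zmod_val v
  have hsplit : tL ((N : ℤ) * (v.val : ℤ) * q) =
      tL ((N : ℤ) * ((v.val : ℤ) - 1) * q) * tL ((N : ℤ) * 1 * q) := by
    rw [← tL_add]
    congr 1
    ring
  have h : u - (-(N : ZMod q)⁻¹) - u * (-(N : ZMod q)⁻¹) * (N : ZMod q) *
      ((((v.val : ℤ) - 1 : ℤ)) : ZMod q) = 0 := by
    push_cast
    rw [ZMod.natCast_zmod_val]
    field_simp
    linear_combination hc
  rw [hsplit, SlashAction.slash_mul,
    shift_slash_tL_psi_h54 hχψ hf u (-(N : ZMod q)⁻¹) ((v.val : ℤ) - 1) h,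
    ModularForm.SL_smul_slash]
  congr 3
  push_cast
  rw [ZMod.natCast_zmod_val]
  field_simp
  ring

/-- The unified pointwise formula, for all `u`, `v`. -/
theorem shift_slash_unified_h54 (hN : (N : ZMod q) ≠ 0) {χ : ℤ → ℂ}
    {ψ : DirichletCharacter ℂ q}
    (hχψ : NebRelH54 N q χ ψ) {f : ℍ → ℂ} (hf : IsNeb k (N * q) χ f) (u v : ZMod q) :
    (shift k q f u) ∣[k] tL ((N : ℤ) * (v.val : ℤ) * q) =
      ψ (1 + (N : ZMod q) * u * v) ^ 2 • shift k q f (u / (1 + (N : ZMod q) * u * v)) +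
        (if 1 + (N : ZMod q) * u * v = 0 then
          (ψ v ^ 2)⁻¹ • (shift k q f (-(N : ZMod q)⁻¹)) ∣[k] tL ((N : ℤ) * 1 * q) else 0) := by
  by_cases hc : 1 + (N : ZMod q) * u * v = 0
  · rw [if_pos hc, shift_slash_caseB_h54 hN hχψ hf u v hc, hc, MulChar.map_zero, zero_pow two_ne_zero,
      zero_smul, zero_add]
  · rw [if_neg hc, add_zero, shift_slash_caseA_h54 hχψ hf u v hc]

/-- The sum over `v` of the translates of one shift. -/
theorem sum_shift_slash_h54 (hN : (N : ZMod q) ≠ 0) {χ : ℤ → ℂ}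
    {ψ : DirichletCharacter ℂ q}
    (hχψ : NebRelH54 N q χ ψ) {f : ℍ → ℂ} (hf : IsNeb k (N * q) χ f) {u : ZMod q}
    (hu : u ≠ 0) :
    ∑ v : ZMod q, (shift k q f u) ∣[k] tL ((N : ℤ) * (v.val : ℤ) * q) =
      ∑ c : ZMod q, ψ c ^ 2 • shift k q f (u / c) +
        ψ ((N : ZMod q) * u) ^ 2 • (shift k q f (-(N : ZMod q)⁻¹)) ∣[k] tL ((N : ℤ) * 1 * q) := by
  classical
  set R : ℍ → ℂ := (shift k q f (-(N : ZMod q)⁻¹)) ∣[k] tL ((N : ℤ) * 1 * q) with hR
  have hNu : (N : ZMod q) * u ≠ 0 := mul_ne_zero hN hu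
  -- pointwise formula in terms of `c = 1 + N u v`
  have hpt : ∀ v : ZMod q, (shift k q f u) ∣[k] tL ((N : ℤ) * (v.val : ℤ) * q) =
      (fun c : ZMod q => ψ c ^ 2 • shift k q f (u / c) +
        (if c = 0 then ψ ((N : ZMod q) * u) ^ 2 • R else 0)) (1 + (N : ZMod q) * u * v) := by
    intro v
    rw [shift_slash_unified_h54 hN hχψ hf u v]
    dsimp only
    congr 1
    by_cases hc : 1 + (N : ZMod q) * u * v = 0
    · rw [if_pos hc, if_pos hc]
      congr 1
      have hv : v = -((N : ZMod q) * u)⁻¹ := by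
        field_simp
        linear_combination hc
      have h1 : ψ v ^ 2 * ψ ((N : ZMod q) * u) ^ 2 = 1 := by
        rw [← mul_pow, ← map_mul, hv]
        have : -((N : ZMod q) * u)⁻¹ * ((N : ZMod q) * u) = -1 := by
          field_simp
        rw [this, ← map_pow]
        simp
      exact inv_eq_of_mul_eq_one_right h1
    · rw [if_neg hc, if_neg hc]
  have hbij : Function.Bijective (fun v : ZMod q => 1 + (N : ZMod q) * u * v) := by
    apply Finite.injective_iff_bijective.mp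
    intro a b hab
    have h1 : (N : ZMod q) * u * a = (N : ZMod q) * u * b := add_left_cancel hab
    exact mul_left_cancel₀ hNu h1
  rw [Finset.sum_congr rfl (fun v _ => hpt v),
    hbij.sum_comp (fun c : ZMod q => ψ c ^ 2 • shift k q f (u / c) +
        (if c = 0 then ψ ((N : ZMod q) * u) ^ 2 • R else 0)),
    Finset.sum_add_distrib, Finset.sum_ite_eq' Finset.univ (0 : ZMod q), if_pos (Finset.mem_univ _)]

/-- **TRACE-ZERO (c)**: the trace of a twist from level `N q²` to level `N q` vanishes. -/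
theorem twist_trace_zero (hN : (N : ZMod q) ≠ 0) {χ : ℤ → ℂ} (hχ : IsCharMod (N * q) χ)
    {ψ : DirichletCharacter ℂ q} (hψ : ψ ≠ 1)
    (hχψ : NebRelH54 N q χ ψ) {f : ℍ → ℂ} (hf : IsNeb k (N * q) χ f) :
    ∑ v : ZMod q, (twist k q ψ f) ∣[k] tL ((N : ℤ) * (v.val : ℤ) * q) = 0 := by
  classical
  set R : ℍ → ℂ := (shift k q f (-(N : ZMod q)⁻¹)) ∣[k] tL ((N : ℤ) * 1 * q) with hR
  have hsum0 : ∑ s : ZMod q, ψ s = 0 := MulChar.sum_eq_zero_of_ne_one hψ
  -- expand the twist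
  have h1 : ∀ v : ZMod q, (twist k q ψ f) ∣[k] tL ((N : ℤ) * (v.val : ℤ) * q) =
      ∑ u : ZMod q, (ψ u)⁻¹ • (shift k q f u) ∣[k] tL ((N : ℤ) * (v.val : ℤ) * q) := by
    intro v
    rw [twist, SlashAction.sum_slash]
    refine Finset.sum_congr rfl fun u _ => ?_
    rw [ModularForm.SL_smul_slash]
  rw [Finset.sum_congr rfl (fun v _ => h1 v), Finset.sum_comm]
  -- the inner sums
  have h2 : ∀ u : ZMod q,
      ∑ v : ZMod q, (ψ u)⁻¹ • (shift k q f u) ∣[k] tL ((N : ℤ) * (v.val : ℤ) * q) =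
      ∑ c : ZMod q, ((ψ u)⁻¹ * ψ c ^ 2) • shift k q f (u / c) +
        (ψ (N : ZMod q) ^ 2 * ψ u) • R := by
    intro u
    rw [← Finset.smul_sum]
    by_cases hu : u = 0
    · rw [hu, MulChar.map_zero, _root_.inv_zero, zero_smul, mul_zero, zero_smul, add_zero]
      symm
      refine Finset.sum_eq_zero fun c _ => ?_
      rw [zero_mul, zero_smul]
    · rw [sum_shift_slash_h54 hN hχψ hf hu, smul_add, Finset.smul_sum, smul_smul]
      congr 1
      · refine Finset.sum_congr rfl fun c _ => ?_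
        rw [smul_smul]
      · congr 1
        have hψu : ψ u ≠ 0 := ((isUnit_iff_ne_zero.mpr hu).map ψ).ne_zero
        rw [map_mul, mul_pow]
        field_simp
  rw [Finset.sum_congr rfl (fun u _ => h2 u), Finset.sum_add_distrib]
  -- second part
  have h3 : ∑ u : ZMod q, (ψ (N : ZMod q) ^ 2 * ψ u) • R = 0 := by
    rw [← Finset.sum_smul, ← Finset.mul_sum, hsum0, mul_zero, zero_smul]
  -- first part
  have h4 : ∑ u : ZMod q, ∑ c : ZMod q, ((ψ u)⁻¹ * ψ c ^ 2) • shift k q f (u / c) = 0 := by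
    rw [Finset.sum_comm]
    have h5 : ∀ c : ZMod q, ∑ u : ZMod q, ((ψ u)⁻¹ * ψ c ^ 2) • shift k q f (u / c) =
        ψ c • twist k q ψ f := by
      intro c
      by_cases hc : c = 0
      · rw [hc, MulChar.map_zero, zero_smul]
        refine Finset.sum_eq_zero fun u _ => ?_
        rw [zero_pow two_ne_zero, mul_zero, zero_smul]
      · have hψc : ψ c ≠ 0 := ((isUnit_iff_ne_zero.mpr hc).map ψ).ne_zero
        have hcu : IsUnit (c⁻¹ : ZMod q) := isUnit_iff_ne_zero.mpr (inv_ne_zero hc)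
        have h6 := sum_inv_smul_mul_unit ψ hcu (fun x => shift k q f x)
        have h7 : ∑ u : ZMod q, ((ψ u)⁻¹ * ψ c ^ 2) • shift k q f (u / c) =
            ψ c ^ 2 • ∑ u : ZMod q, (ψ u)⁻¹ • shift k q f (c⁻¹ * u) := by
          rw [Finset.smul_sum]
          refine Finset.sum_congr rfl fun u _ => ?_
          rw [smul_smul, mul_comm (ψ c ^ 2), div_eq_mul_inv, mul_comm u]
        rw [h7, h6, smul_smul, twist]
        congr 1
        rw [← MulChar.inv_apply', MulChar.inv_apply_eq_inv']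
        field_simp
    rw [Finset.sum_congr rfl (fun c _ => h5 c), ← Finset.sum_smul, hsum0, zero_smul]
  rw [h3, h4, add_zero]

/-- **TRACE-ZERO (b)**: `U_q` kills a twist by a non-trivial character modulo `q`. -/
theorem heckeU_twist_self {ψ : DirichletCharacter ℂ q} (hψ : ψ ≠ 1) {f : ℍ → ℂ}
    (hf : IsPer k f) : heckeU k q (twist k q ψ f) = 0 := by
  classical
  have hq0 : q ≠ 0 := NeZero.ne q
  have hU := isPer_heckeU hf q
  have step : ∀ u : ZMod q, heckeU k q (shift k q f u) = heckeU k q f := by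
    intro u
    rw [heckeU_def, heckeU_def]
    have h1 : ∀ j : ℕ, (shift k q f u) ∣[k] heckeMatrix q j =
        (f ∣[k] heckeMatrix q j) ∣[k] tr (((u.val : ℤ) : ℝ)) := by
      intro j
      rw [shift_slash_heckeMatrix hq0 j f u]
      congr 2
      have hqr : (q : ℝ) ≠ 0 := by exact_mod_cast hq0
      push_cast
      field_simp
    rw [Finset.sum_congr rfl (fun j _ => h1 j), ← SlashAction.sum_slash, ← heckeU_def]
    exact hU.slash_tr_int _
  have hsum : ∑ u : ZMod q, (ψ u)⁻¹ = 0 := by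
    have h := MulChar.sum_eq_zero_of_ne_one (inv_ne_one.mpr hψ)
    rw [← h]
    refine Finset.sum_congr rfl fun u _ => ?_
    rw [MulChar.inv_apply_eq_inv']
  -- linearity of `heckeU`
  have hlin : heckeU k q (twist k q ψ f) = ∑ u : ZMod q, (ψ u)⁻¹ • heckeU k q (shift k q f u) := by
    rw [twist, heckeU_def]
    simp_rw [SlashAction.sum_slash, smul_slash_heckeMatrix]
    rw [Finset.sum_comm]
    refine Finset.sum_congr rfl fun u _ => ?_
    rw [heckeU_def, Finset.smul_sum]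
  rw [hlin, Finset.sum_congr rfl (fun u _ => by rw [step u]), ← Finset.sum_smul, hsum, zero_smul]

end Fermat.Agent.S59.TW.H54
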