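import Fermat.Agent.S59.TW.H54.TwistNew
import Fermat.Agent.S59.TW.H54.TraceZero

/-!
# TW-NS (helper54): the twist of a form with nebentypus at `q` is `q²`-new

Assembly of part A (`TwistNew.lean`: a trace-new normalized eigenform is `q²`-new, by the
functional equation) and part B (`TraceZero.lean`: a twist is trace-new, by coset algebra).

`twist_exists_newform` : let `f` have nebentypus `χ` on `Γ₀(N q)`, `q ∤ N` prime, `ψ ≠ 1` a
Dirichlet character modulo `q` with `χ ψ² = 1` on `Γ₀(N q)`, and let `F` be a normalized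
eigenform of level `N q²` which is a scalar multiple of `twist 2 q ψ f`.  Then there is a
Prelude-newform `g` of a level `M ∣ N q²` with `v_q(M) = 2` and `a_ℓ(g) = a_ℓ(F)` for all primes
`ℓ ∤ N q`.  This is exactly the hypothesis under which the frozen statement S36 gives
"`ρ_F` is not unipotent on inertia at `q`" (items (R) of TW-ALG and (NU) of Ihara avoidance).
-/

set_option autoImplicit false
set_option linter.unusedSectionVars false

namespace Fermat.Agent.S59.TW.H54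

open Matrix Matrix.SpecialLinearGroup CongruenceSubgroup UpperHalfPlane ModularForm
open Fermat.Agent.Lib.Newform.H803 Fermat.Agent.S59.TW.H564
open Fermat.Agent.Lib.Newform.H958.X ModularFormClass
open scoped MatrixGroups ModularForm

/-- `W_C β_j = [1, 0; -N j q, 1] · diag(q, 1) · W_C`, `C = N q²`. -/
theorem fricke_mul_heckeMatrix_h54 (N q : ℕ) [NeZero (N * q * q)] (hq : q ≠ 0) (j : ℕ) :
    frickeMatrix (N * q * q) * heckeMatrix q j =
      mapGL ℝ (tL (-((N : ℤ) * (j : ℤ) * q))) * heckeDiagMatrix q * frickeMatrix (N * q * q) := by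
  apply Matrix.GeneralLinearGroup.ext
  intro a b
  rw [Matrix.GeneralLinearGroup.coe_mul, Matrix.GeneralLinearGroup.coe_mul,
    Matrix.GeneralLinearGroup.coe_mul, val_heckeMatrix hq, val_heckeDiagMatrix hq]
  have t00 : ((mapGL ℝ (tL (-((N : ℤ) * (j : ℤ) * q))) : GL (Fin 2) ℝ) :
      Matrix (Fin 2) (Fin 2) ℝ) 0 0 = 1 := by
    rw [mapGL_val_apply]; simp
  have t01 : ((mapGL ℝ (tL (-((N : ℤ) * (j : ℤ) * q))) : GL (Fin 2) ℝ) :
      Matrix (Fin 2) (Fin 2) ℝ) 0 1 = 0 := by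
    rw [mapGL_val_apply]; simp
  have t10 : ((mapGL ℝ (tL (-((N : ℤ) * (j : ℤ) * q))) : GL (Fin 2) ℝ) :
      Matrix (Fin 2) (Fin 2) ℝ) 1 0 = -((N : ℝ) * j * q) := by
    rw [mapGL_val_apply]; simp
  have t11 : ((mapGL ℝ (tL (-((N : ℤ) * (j : ℤ) * q))) : GL (Fin 2) ℝ) :
      Matrix (Fin 2) (Fin 2) ℝ) 1 1 = 1 := by
    rw [mapGL_val_apply]; simp
  fin_cases a <;> fin_cases b <;>
    simp [frickeMatrix, Matrix.mul_apply, Fin.sum_univ_two, t00, t01, t10, t11] <;> ring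

variable {k : ℤ} {N q : ℕ} [NeZero q]

/-- For a `Γ₀(N q²)`-invariant function, `Φ ∣ [1, 0; N n q, 1]` only depends on `n` mod `q`. -/
theorem slash_tL_periodic_h54 {Φ : ℍ → ℂ} (hΦ : SlInv k (Gamma0 (N * q * q)) Φ) (n : ℤ) :
    Φ ∣[k] tL ((N : ℤ) * n * q) = Φ ∣[k] tL ((N : ℤ) * (((n : ZMod q).val : ℕ) : ℤ) * q) := by
  have h2 : (((n : ZMod q).val : ℕ) : ℤ) = n % q := ZMod.val_intCast n
  have h3 := Int.emod_add_mul_ediv n (q : ℤ)
  have h4 : (N : ℤ) * n * q = (N : ℤ) * (n / q) * q * q + (N : ℤ) * (n % q) * q := by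
    conv_lhs => rw [← h3]
    ring
  have hmem : tL ((N : ℤ) * (n / q) * q * q) ∈ Gamma0 (N * q * q) := by
    rw [mem_Gamma0_iff_dvd]
    have : tL ((N : ℤ) * (n / q) * q * q) 1 0 = (N : ℤ) * (n / q) * q * q := rfl
    rw [this]
    exact ⟨n / q, by push_cast; ring⟩
  rw [h4, tL_add, SlashAction.slash_mul, hΦ _ hmem, h2]

/-- The sum over `range q` of the translates by `-j` is the sum over `ZMod q`. -/
theorem sum_range_neg_h54 {Φ : ℍ → ℂ} (hΦ : SlInv k (Gamma0 (N * q * q)) Φ) :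
    ∑ j ∈ Finset.range q, Φ ∣[k] tL (-((N : ℤ) * (j : ℤ) * q)) =
      ∑ v : ZMod q, Φ ∣[k] tL ((N : ℤ) * (v.val : ℤ) * q) := by
  classical
  have h1 : ∀ j : ℕ, Φ ∣[k] tL (-((N : ℤ) * (j : ℤ) * q)) =
      (fun v : ZMod q => Φ ∣[k] tL ((N : ℤ) * (v.val : ℤ) * q)) (-(j : ZMod q)) := by
    intro j
    have e : -((N : ℤ) * (j : ℤ) * q) = (N : ℤ) * (-(j : ℤ)) * q := by ring
    rw [e, slash_tL_periodic_h54 hΦ (-(j : ℤ))]
    dsimp only
    congr 5
    push_cast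
    rfl
  rw [Finset.sum_congr rfl (fun j _ => h1 j)]
  have h2 : ∑ j ∈ Finset.range q,
      (fun v : ZMod q => Φ ∣[k] tL ((N : ℤ) * (v.val : ℤ) * q)) (-(j : ZMod q)) =
      ∑ w : ZMod q, (fun v : ZMod q => Φ ∣[k] tL ((N : ℤ) * (v.val : ℤ) * q)) (-w) := by
    refine Finset.sum_nbij' (fun j : ℕ => (j : ZMod q)) (fun w : ZMod q => w.val) ?_ ?_ ?_ ?_ ?_
    · intro j _
      exact Finset.mem_univ _
    · intro w _
      exact Finset.mem_range.mpr (ZMod.val_lt w)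
    · intro j hj
      exact ZMod.val_natCast_of_lt (Finset.mem_range.mp hj)
    · intro w _
      exact ZMod.natCast_zmod_val w
    · intro j _
      rfl
  rw [h2]
  exact Equiv.sum_comp (Equiv.neg (ZMod q))
    (fun v : ZMod q => Φ ∣[k] tL ((N : ℤ) * (v.val : ℤ) * q))

/-- **Bridge**: if the trace of `Φ` to level `N q` vanishes, then `U_q (Φ ∣ W_{N q²}) = 0`. -/
theorem heckeU_fricke_eq_zero_h54 [NeZero (N * q * q)] {Φ : ℍ → ℂ}
    (hΦ : SlInv k (Gamma0 (N * q * q)) Φ)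
    (htr : ∑ v : ZMod q, Φ ∣[k] tL ((N : ℤ) * (v.val : ℤ) * q) = 0) :
    heckeU k q (Φ ∣[k] frickeMatrix (N * q * q)) = 0 := by
  have hq : q ≠ 0 := NeZero.ne q
  rw [heckeU_def]
  have h1 : ∀ j : ℕ, (Φ ∣[k] frickeMatrix (N * q * q)) ∣[k] heckeMatrix q j =
      ((Φ ∣[k] tL (-((N : ℤ) * (j : ℤ) * q))) ∣[k] heckeDiagMatrix q) ∣[k]
        frickeMatrix (N * q * q) := by
    intro j
    rw [← SlashAction.slash_mul, fricke_mul_heckeMatrix_h54 N q hq j, SlashAction.slash_mul,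
      SlashAction.slash_mul, ← sl_slash_mapGL]
  rw [Finset.sum_congr rfl (fun j _ => h1 j), ← SlashAction.sum_slash, ← SlashAction.sum_slash,
    sum_range_neg_h54 hΦ, htr, SlashAction.zero_slash, SlashAction.zero_slash]

/-- If `U_q` kills a cusp form, its `q`-divisible Fourier coefficients vanish. -/
theorem qCoeff_eq_zero_of_heckeU_h54 {C : ℕ} (hq : q ≠ 0) (F : CuspForm (Gamma0 C) 2)
    (h : heckeU 2 q (⇑F : ℍ → ℂ) = 0) (n : ℕ) (hn : q ∣ n) : qCoeff F n = 0 := by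
  obtain ⟨m, rfl⟩ := hn
  have h1 := Fermat.Agent.Lib.Newform.H683.qCoeff_heckeU_cusp 2 F hq m
  rw [coeffHeckeU_apply, h] at h1
  have h0 : qCoeff (0 : ℍ → ℂ) m = 0 := by
    have := (Fermat.Agent.Lib.Newform.H683.coeffLin C 2 m).map_zero
    rw [Fermat.Agent.Lib.Newform.H683.coeffLin_apply] at this
    exact this
  rw [mul_comm q m, ← h1, h0]

/-- **TW-NS.**  The twist of a form with nebentypus at `q` is `q²`-new: the Prelude-newform
attached to a normalized eigenform `F = c • twist 2 q ψ f` of level `N q²` has level `M` with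
`v_q(M) = 2`. -/
theorem twist_exists_newform (hq : q.Prime) [NeZero N] (hNq : ¬ q ∣ N) {χ : ℤ → ℂ}
    (hχ : IsCharMod (N * q) χ) {ψ : DirichletCharacter ℂ q} (hψ : ψ ≠ 1)
    (hχψ : ∀ γ ∈ Gamma0 (N * q), χ (γ 1 1) * ψ ((γ 1 1 : ℤ) : ZMod q) ^ 2 = 1)
    {f : ℍ → ℂ} (hf : IsNeb 2 (N * q) χ f)
    (F : CuspForm (Gamma0 (N * q * q)) 2) (c : ℂ)
    (hFc : (⇑F : ℍ → ℂ) = c • twist 2 q ψ f) (hF : F.IsNormalizedEigenform) :
    ∃ (M : ℕ) (_ : NeZero M) (g : CuspForm (Gamma0 M) 2), g.IsNewform ∧ M ∣ N * q * q ∧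
      M.factorization q = 2 ∧
      ∀ ℓ : ℕ, ℓ.Prime → ¬ ℓ ∣ N * q * q → qCoeff g ℓ = qCoeff F ℓ := by
  have : Fact q.Prime := ⟨hq⟩
  have hN0 : N ≠ 0 := NeZero.ne N
  have : NeZero (N * q * q) := ⟨mul_ne_zero (mul_ne_zero hN0 hq.ne_zero) hq.ne_zero⟩
  have hNz : (N : ZMod q) ≠ 0 := by
    intro h
    exact hNq ((ZMod.natCast_eq_zero_iff N q).mp h)
  -- the level
  have hC : (N * q * q).factorization q = 2 := by
    rw [Nat.factorization_mul (mul_ne_zero hN0 hq.ne_zero) hq.ne_zero,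
      Nat.factorization_mul hN0 hq.ne_zero]
    simp only [Finsupp.coe_add, Pi.add_apply]
    rw [Nat.factorization_eq_zero_of_not_dvd hNq, hq.factorization_self]
  -- the Fricke transform
  obtain ⟨F', hF'⟩ := Fermat.Agent.Lib.Newform.H16.frickeOp (N * q * q) F
  -- `U_q F = 0`
  have hU : heckeU 2 q (⇑F : ℍ → ℂ) = 0 := by
    rw [hFc, heckeU_def]
    simp_rw [smul_slash_heckeMatrix]
    rw [← Finset.smul_sum, ← heckeU_def, heckeU_twist_self hψ (hf.isPer hχ), smul_zero]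
  have hFq : qCoeff F q = 0 :=
    qCoeff_eq_zero_of_heckeU_h54 hq.ne_zero F hU q dvd_rfl
  -- `U_q (F ∣ W) = 0`
  have hinv : SlInv 2 (Gamma0 (N * q * q)) (⇑F : ℍ → ℂ) := fun γ hγ =>
    SlashInvariantForm.slash_action_eqn F _ (Subgroup.mem_map_of_mem _ hγ)
  have htr : ∑ v : ZMod q, (⇑F : ℍ → ℂ) ∣[(2 : ℤ)] tL ((N : ℤ) * (v.val : ℤ) * q) = 0 := by
    rw [hFc]
    simp_rw [ModularForm.SL_smul_slash]
    rw [← Finset.smul_sum, twist_trace_zero hNz hχ hψ hχψ hf, smul_zero]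
  have hU' : heckeU 2 q (⇑F' : ℍ → ℂ) = 0 := by
    rw [hF']
    exact heckeU_fricke_eq_zero_h54 hinv htr
  have hF'q : ∀ n : ℕ, q ∣ n → qCoeff F' n = 0 :=
    qCoeff_eq_zero_of_heckeU_h54 hq.ne_zero F' hU'
  exact exists_newform_factorization_eq_two hq hC F F' hF hF' hFq hF'q

end Fermat.Agent.S59.TW.H54
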