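import Fermat.Agent.Lib.Newform.H958.X.Final
import Fermat.Agent.S59.TW.H54.ArithFun

/-!
# TW-NS, part A (helper54): a trace-new eigenform at `q²` is `q²`-new

Let `F` be a normalized eigenform of level `C`, `q² ∥ C`, such that both `F` and its Fricke
transform `F' = F ∣ W_C` have vanishing `q`-divisible Fourier coefficients
(`U_q F = 0 = U_q (F ∣ W_C)`; this is the TRACE-ZERO property of a twist
`F = Σ_u η(u) f ∣ T_{u/q}`).  Then every Prelude-newform `g₀` with the same Hecke eigenvalues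
outside a finite set of primes has level divisible by `q²`.

Proof: functional equations of `Λ_F`, `Λ_{g₀}` (NEWFORM library, block X), depletion, and
comparison of Dirichlet coefficients (`ArithFun.lean`).  No Petersson product, no structure
theorem for the old space.
-/

set_option autoImplicit false

open CongruenceSubgroup Complex Polynomial
open UpperHalfPlane hiding I
open scoped MatrixGroups ModularForm

namespace Fermat.Agent.S59.TW.H54

open ModularFormClass ModularForm Fermat.Agent.Lib.Newform.H958.X ArithmeticFunction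

/-- The functional-equation identity between a normalized eigenform `F` with Fricke transform
`F'` and a newform `g₀` with the same eigenvalues outside `T`. -/
theorem fe_identity_h54 {C L₀ : ℕ} [NeZero C] [NeZero L₀]
    {F F' : CuspForm (Gamma0 C) 2} (hF : F.IsNormalizedEigenform)
    (hF' : (⇑F' : ℍ → ℂ) = ⇑F ∣[(2 : ℤ)] frickeMatrix C)
    {g₀ : CuspForm (Gamma0 L₀) 2} (hg₀ : g₀.IsNormalizedEigenform) {w : ℂ}
    (hFE : ∀ s : ℂ, Lam g₀ (2 - s) = -(w * (L₀ : ℂ) ^ (s - 1)) * Lam g₀ s)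
    (T : Finset ℕ) (hT : ∀ p ∈ T, p.Prime)
    (hTC : C.primeFactors ⊆ T) (hTL : L₀.primeFactors ⊆ T)
    (hagree : ∀ ℓ : ℕ, ℓ.Prime → ℓ ∉ T → qCoeff F ℓ = qCoeff g₀ ℓ) (s : ℂ) :
    (C : ℂ) ^ (s - 1) * Lam F' s *
        ∏ p ∈ T, (eulerPolyRev C (qCoeff F) p).eval ((p : ℂ) ^ (-s)) =
      w * (L₀ : ℂ) ^ (s - 1) * Lam g₀ s *
        ∏ p ∈ T, (eulerPolyRev L₀ (qCoeff g₀) p).eval ((p : ℂ) ^ (-s)) := by
  have h1 := Lam_mul_eulerProd_eq Fermat.Agent.Lib.Newform.H683.deplete hF hg₀ T hT hTC hTL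
    hagree (2 - s)
  rw [functionalEq C F F' hF' s, hFE s] at h1
  rw [← eulerProd_two_sub C (qCoeff F) T hT s, ← eulerProd_two_sub L₀ (qCoeff g₀) T hT s]
  linear_combination (-(∏ p ∈ T, ((p : ℂ) ^ (-s)) ^ 2)) * h1

/-- The coefficient sequence of a cusp form as an arithmetic function. -/
noncomputable def coeffAF {N : ℕ} (f : CuspForm (Gamma0 N) 2) : ArithmeticFunction ℂ :=
  ⟨fun n => qCoeff f n, Fermat.Agent.Lib.Newform.H683.qCoeff_zero_cusp 2 f⟩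

theorem coeffAF_apply {N : ℕ} (f : CuspForm (Gamma0 N) 2) (n : ℕ) :
    coeffAF f n = qCoeff f n := rfl

theorem lseriesHasSum_coeffAF {N : ℕ} [NeZero N] (f : CuspForm (Gamma0 N) 2) {s : ℂ}
    (hs : 2 < s.re) : LSeriesHasSum (⇑(coeffAF f)) s (Lam f s * (2 / Gammaℂ s)) :=
  lseriesHasSum_of_hasSum hs (dirichletSeries N f s hs)

/-- The `q`-depleted coefficient sequence of a cusp form as an arithmetic function. -/
noncomputable def coeffDepAF {N : ℕ} (q : ℕ) (f : CuspForm (Gamma0 N) 2) :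
    ArithmeticFunction ℂ :=
  ⟨fun n => if q ∣ n then 0 else qCoeff f n, by simp⟩

theorem coeffDepAF_apply {N : ℕ} (q : ℕ) (f : CuspForm (Gamma0 N) 2) (n : ℕ) :
    coeffDepAF q f n = if q ∣ n then 0 else qCoeff f n := rfl

theorem qFree_coeffDepAF {N : ℕ} (q : ℕ) (f : CuspForm (Gamma0 N) 2) :
    QFreeH54 q (coeffDepAF q f) := by
  intro n hn
  rw [coeffDepAF_apply, if_pos hn]

theorem coeffDepAF_ne_zero {N : ℕ} {q : ℕ} (hq : q.Prime) {f : CuspForm (Gamma0 N) 2}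
    (hf : f.IsNormalizedEigenform) : coeffDepAF q f ≠ 0 := by
  intro h
  have h1 : coeffDepAF q f 1 = 1 := by
    rw [coeffDepAF_apply, if_neg (fun h => hq.one_lt.ne' (Nat.dvd_one.mp h)), hf.qCoeff_one]
  rw [h] at h1
  simp at h1

theorem lseriesHasSum_coeffDepAF {N : ℕ} [NeZero N] {q : ℕ} (hq : q.Prime)
    {f : CuspForm (Gamma0 N) 2} (hf : f.IsNormalizedEigenform) {s : ℂ} (hs : 2 < s.re) :
    LSeriesHasSum (⇑(coeffDepAF q f)) s
      (Lam f s * (2 / Gammaℂ s) * (eulerPoly N (qCoeff f) q).eval ((q : ℂ) ^ (-s))) := by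
  classical
  have h := Fermat.Agent.Lib.Newform.H683.deplete N f hf {q}
    (fun p hp => by rw [Finset.mem_singleton.mp hp]; exact hq) s hs
  rw [Finset.prod_singleton] at h
  refine lseriesHasSum_of_hasSum hs ?_
  convert h using 2 with n
  rw [coeffDepAF_apply]
  by_cases hn : q ∣ n
  · rw [if_pos hn, if_neg]
    intro h'
    exact h' q (Finset.mem_singleton_self q) hn
  · rw [if_neg hn, if_pos]
    intro p hp
    rw [Finset.mem_singleton.mp hp]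
    exact hn

/-- **TW-NS, part A.** -/
theorem twistNew_sq_dvd {q : ℕ} (hq : q.Prime) {C L₀ : ℕ} [NeZero C] [NeZero L₀]
    (hC : C.factorization q = 2)
    (F F' : CuspForm (Gamma0 C) 2) (hF : F.IsNormalizedEigenform)
    (hF' : (⇑F' : ℍ → ℂ) = ⇑F ∣[(2 : ℤ)] frickeMatrix C)
    (hFq : qCoeff F q = 0) (hF'q : ∀ n : ℕ, q ∣ n → qCoeff F' n = 0)
    (g₀ : CuspForm (Gamma0 L₀) 2) (hg₀ : g₀.IsNewform) (S : Finset ℕ)
    (hS : ∀ ℓ : ℕ, ℓ.Prime → ℓ ∉ S → qCoeff g₀ ℓ = qCoeff F ℓ) : q ^ 2 ∣ L₀ := by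
  classical
  have hC0 : C ≠ 0 := NeZero.ne C
  have hL0 : L₀ ≠ 0 := NeZero.ne L₀
  have hqC : q ∣ C := by
    by_contra h
    rw [Nat.factorization_eq_zero_of_not_dvd h] at hC
    omega
  -- the level of the newform divides `C`
  have hdvd : L₀ ∣ C := crossLevel L₀ C g₀ F hg₀ hF S hS
  obtain ⟨d₀, hd₀⟩ := hdvd
  have hd0 : d₀ ≠ 0 := by
    rintro rfl
    rw [mul_zero] at hd₀
    exact hC0 hd₀
  -- the set of primes
  let T : Finset ℕ := (S ∪ C.primeFactors ∪ L₀.primeFactors ∪ {q}).filter Nat.Prime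
  have hT : ∀ p ∈ T, p.Prime := fun p hp => (Finset.mem_filter.mp hp).2
  have hqT : q ∈ T := Finset.mem_filter.mpr ⟨by simp, hq⟩
  have hTC : C.primeFactors ⊆ T := fun p hp =>
    Finset.mem_filter.mpr ⟨by simp [hp], (Nat.mem_primeFactors.mp hp).1⟩
  have hTL : L₀.primeFactors ⊆ T := fun p hp =>
    Finset.mem_filter.mpr ⟨by simp [hp], (Nat.mem_primeFactors.mp hp).1⟩
  have hag : ∀ ℓ : ℕ, ℓ.Prime → ℓ ∉ T → qCoeff F ℓ = qCoeff g₀ ℓ := fun ℓ hℓ hℓT =>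
    (hS ℓ hℓ fun hS' => hℓT (Finset.mem_filter.mpr ⟨by simp [hS'], hℓ⟩)).symm
  have hT' : ∀ p ∈ T.erase q, p.Prime ∧ p ≠ q := fun p hp =>
    ⟨hT p (Finset.mem_of_mem_erase hp), Finset.ne_of_mem_erase hp⟩
  -- functional equation of the newform
  obtain ⟨w, hw, hFE⟩ := functionalEq_newform_of Fermat.Agent.Lib.Newform.H16.frickeOp
    Fermat.Agent.Lib.Newform.H16.frickeInvol Fermat.Agent.Lib.Newform.H16.frickeHecke
    Fermat.Agent.Lib.Newform.H803.multOne Fermat.Agent.Lib.Newform.H683.eigenT hg₀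
  have hw0 : w ≠ 0 := by
    rintro rfl
    simp at hw
  have hid := fe_identity_h54 hF hF' hg₀.1 hFE T hT hTC hTL hag
  -- the Euler factor of `F` at `q`
  have hEq : eulerPolyRev C (qCoeff F) q = X ^ 2 := by
    rw [eulerPolyRev, if_pos hqC, hFq]
    simp
  -- suppose `q² ∤ L₀`
  by_contra hcon
  -- `q`-parts of the levels
  set e := L₀.factorization q with he
  have he1 : e ≤ 1 := by
    by_contra h
    exact hcon ((hq.pow_dvd_iff_le_factorization hL0).mpr (by omega))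
  have hfd : d₀.factorization q = 2 - e := by
    have h1 : C.factorization q = L₀.factorization q + d₀.factorization q := by
      rw [hd₀, Nat.factorization_mul hL0 hd0]
      rfl
    omega
  set d' := d₀ / q ^ (2 - e) with hd'
  have hdd : d₀ = q ^ (2 - e) * d' := by
    rw [hd', ← hfd]
    exact (Nat.ordProj_mul_ordCompl_eq_self d₀ q).symm
  have hqd' : ¬ q ∣ d' := by
    rw [hd', ← hfd]
    exact Nat.not_dvd_ordCompl hq hd0
  have hd'0 : d' ≠ 0 := by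
    rintro h
    rw [h, mul_zero] at hdd
    exact hd0 hdd
  -- the arithmetic functions
  set a' := coeffAF F' with ha'
  set E' : ArithmeticFunction ℂ := ∏ p ∈ T.erase q, peH54 (eulerPolyRev C (qCoeff F) p) p
    with hE'
  set P' : ArithmeticFunction ℂ := ∏ p ∈ T.erase q, peH54 (eulerPolyRev L₀ (qCoeff g₀) p) p
    with hP'
  set G₁ : ArithmeticFunction ℂ := a' * E' with hG₁
  set G₂ : ArithmeticFunction ℂ := dmH54 d' * coeffDepAF q g₀ * P' with hG₂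
  set A : ℂ[X] := X ^ 2 * eulerPoly L₀ (qCoeff g₀) q with hA
  set B : ℂ[X] := Polynomial.C (w * (d₀ : ℂ)) * X ^ (2 - e) * eulerPolyRev L₀ (qCoeff g₀) q
    with hB
  -- `q`-freeness
  have hqa' : QFreeH54 q a' := fun n hn => hF'q n hn
  have hqE' : QFreeH54 q E' := QFreeH54.prod hq _ _ fun p hp =>
    QFreeH54.pe hq (hT' p hp).1 (hT' p hp).2 _
  have hqP' : QFreeH54 q P' := QFreeH54.prod hq _ _ fun p hp =>
    QFreeH54.pe hq (hT' p hp).1 (hT' p hp).2 _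
  have hqG₁ : QFreeH54 q G₁ := hqa'.mul hq hqE'
  have hqG₂ : QFreeH54 q G₂ :=
    ((QFreeH54.dm hqd').mul hq (qFree_coeffDepAF q g₀)).mul hq hqP'
  -- `G₂ ≠ 0`
  have hG₂0 : G₂ ≠ 0 :=
    mul_ne_zero_h54 (mul_ne_zero_h54 (dmH54_ne_zero hd'0) (coeffDepAF_ne_zero hq hg₀.1))
      (prod_ne_zero_h54 _ _ fun p hp =>
        peH54_ne_zero (eulerPolyRev_ne_zero L₀ (qCoeff g₀) p) (hT' p hp).1)
  -- the two `L`-series
  have hu : ∀ s : ℂ, 2 < s.re → LSeriesHasSum (⇑(peH54 A q * G₁)) s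
      (A.eval ((q : ℂ) ^ (-s)) * (Lam F' s * (2 / Gammaℂ s) *
        ∏ p ∈ T.erase q, (eulerPolyRev C (qCoeff F) p).eval ((p : ℂ) ^ (-s)))) := by
    intro s hs
    refine LSeriesHasSum_mul (lseriesHasSum_peH54 A hq.ne_zero s)
      (LSeriesHasSum_mul (lseriesHasSum_coeffAF F' hs) ?_)
    exact lseriesHasSum_prod_h54 _ _ _ s fun p hp =>
      lseriesHasSum_peH54 _ (hT' p hp).1.ne_zero s
  have hv : ∀ s : ℂ, 2 < s.re → LSeriesHasSum (⇑(peH54 B q * G₂)) s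
      (B.eval ((q : ℂ) ^ (-s)) * ((d' : ℂ) ^ (-s) *
        (Lam g₀ s * (2 / Gammaℂ s) * (eulerPoly L₀ (qCoeff g₀) q).eval ((q : ℂ) ^ (-s))) *
        ∏ p ∈ T.erase q, (eulerPolyRev L₀ (qCoeff g₀) p).eval ((p : ℂ) ^ (-s)))) := by
    intro s hs
    refine LSeriesHasSum_mul (lseriesHasSum_peH54 B hq.ne_zero s)
      (LSeriesHasSum_mul (LSeriesHasSum_mul (lseriesHasSum_dmH54 hd'0 s)
        (lseriesHasSum_coeffDepAF hq hg₀.1 hs)) ?_)
    exact lseriesHasSum_prod_h54 _ _ _ s fun p hp =>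
      lseriesHasSum_peH54 _ (hT' p hp).1.ne_zero s
  -- the values agree
  have hval : ∀ s : ℂ, 2 < s.re →
      A.eval ((q : ℂ) ^ (-s)) * (Lam F' s * (2 / Gammaℂ s) *
        ∏ p ∈ T.erase q, (eulerPolyRev C (qCoeff F) p).eval ((p : ℂ) ^ (-s))) =
      B.eval ((q : ℂ) ^ (-s)) * ((d' : ℂ) ^ (-s) *
        (Lam g₀ s * (2 / Gammaℂ s) * (eulerPoly L₀ (qCoeff g₀) q).eval ((q : ℂ) ^ (-s))) *
        ∏ p ∈ T.erase q, (eulerPolyRev L₀ (qCoeff g₀) p).eval ((p : ℂ) ^ (-s))) := by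
    intro s hs
    have h := hid s
    rw [← Finset.mul_prod_erase T _ hqT, ← Finset.mul_prod_erase T _ hqT, hEq] at h
    simp only [eval_pow, eval_X] at h
    have hCc : (C : ℂ) ^ (s - 1) = (L₀ : ℂ) ^ (s - 1) * (d₀ : ℂ) ^ (s - 1) := by
      rw [hd₀, Nat.cast_mul, natCast_mul_natCast_cpow]
    have hLne : (L₀ : ℂ) ^ (s - 1) ≠ 0 :=
      (Complex.cpow_ne_zero_iff).mpr (Or.inl (Nat.cast_ne_zero.mpr hL0))
    have hdc : (d₀ : ℂ) ≠ 0 := Nat.cast_ne_zero.mpr hd0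
    have hd1 : (d₀ : ℂ) ^ (s - 1) * ((d₀ : ℂ) * (d₀ : ℂ) ^ (-s)) = 1 := by
      rw [Complex.cpow_sub _ _ hdc, Complex.cpow_one, Complex.cpow_neg]
      have : (d₀ : ℂ) ^ s ≠ 0 := (Complex.cpow_ne_zero_iff).mpr (Or.inl hdc)
      field_simp
    have hd2 : (d₀ : ℂ) ^ (-s) = ((q : ℂ) ^ (-s)) ^ (2 - e) * (d' : ℂ) ^ (-s) := by
      rw [hdd, Nat.cast_mul, natCast_mul_natCast_cpow, natCast_pow_cpow_neg_h54]
    rw [hCc] at h
    have h' : (d₀ : ℂ) ^ (s - 1) * Lam F' s *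
        (((q : ℂ) ^ (-s)) ^ 2 *
          ∏ p ∈ T.erase q, (eulerPolyRev C (qCoeff F) p).eval ((p : ℂ) ^ (-s))) =
        w * Lam g₀ s * ((eulerPolyRev L₀ (qCoeff g₀) q).eval ((q : ℂ) ^ (-s)) *
          ∏ p ∈ T.erase q, (eulerPolyRev L₀ (qCoeff g₀) p).eval ((p : ℂ) ^ (-s))) := by
      apply mul_left_cancel₀ hLne
      linear_combination h
    simp only [hA, hB, eval_mul, eval_pow, eval_X, eval_C]
    rw [hd2] at hd1
    linear_combination
      ((2 / Gammaℂ s) * (eulerPoly L₀ (qCoeff g₀) q).eval ((q : ℂ) ^ (-s)) *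
        ((d₀ : ℂ) * (((q : ℂ) ^ (-s)) ^ (2 - e) * (d' : ℂ) ^ (-s)))) * h' +
      (-(Lam F' s * (2 / Gammaℂ s) *
        ∏ p ∈ T.erase q, (eulerPolyRev C (qCoeff F) p).eval ((p : ℂ) ^ (-s))) *
        (((q : ℂ) ^ (-s)) ^ 2 * (eulerPoly L₀ (qCoeff g₀) q).eval ((q : ℂ) ^ (-s)))) * hd1
  -- equality of the arithmetic functions
  have huv : peH54 A q * G₁ = peH54 B q * G₂ :=
    eq_of_lseriesHasSum_h54 _ hu fun s hs => by
      rw [hval s hs]
      exact hv s hs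
  -- coefficient extraction
  have hext : ∀ (i m : ℕ), ¬ q ∣ m → A.coeff i * G₁ m = B.coeff i * G₂ m := by
    intro i m hm
    rw [← peH54_mul_apply hq A hqG₁ hm i, ← peH54_mul_apply hq B hqG₂ hm i, huv]
  have hqc : (q : ℂ) ≠ 0 := Nat.cast_ne_zero.mpr hq.ne_zero
  have hq2 : (q : ℂ) ^ 2 ≠ 1 := Fermat.Agent.Lib.Newform.H863.X8.cast_prime_sq_ne_one hq
  have hwd : w * (d₀ : ℂ) ≠ 0 := mul_ne_zero hw0 (Nat.cast_ne_zero.mpr hd0)
  apply hG₂0
  refine hqG₂.eq_zero fun m hm => ?_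
  rcases Fermat.Agent.Lib.Newform.H863.X8.shape hg₀ hq with
    ⟨h0, -, hP, hPr⟩ | ⟨h1, ha2, hP, hPr⟩ | ⟨h2, -, -, -⟩
  · -- `q ∤ L₀`
    have he0 : e = 0 := h0
    have hA' : A = X ^ 2 - Polynomial.C (qCoeff g₀ q) * X ^ 3 + Polynomial.C (q : ℂ) * X ^ 4 := by
      rw [hA, hP]
      ring
    have hB' : B = Polynomial.C (w * (d₀ : ℂ)) * X ^ 4
        - Polynomial.C (w * (d₀ : ℂ) * (qCoeff g₀ q * ((q : ℂ) ^ 2)⁻¹)) * X ^ 3
        + Polynomial.C (w * (d₀ : ℂ) * ((q : ℂ) ^ 3)⁻¹) * X ^ 2 := by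
      rw [hB, hPr, he0, Polynomial.C_mul (a := w * (d₀ : ℂ)),
        Polynomial.C_mul (a := w * (d₀ : ℂ))]
      ring
    have e2 := hext 2 m hm
    have e4 := hext 4 m hm
    rw [hA', hB'] at e2 e4
    simp only [coeff_add, coeff_sub, coeff_C_mul, coeff_X_pow] at e2 e4
    norm_num at e2 e4
    -- `e2 : G₁ m = w d₀ q⁻³ G₂ m`, `e4 : q G₁ m = w d₀ G₂ m`
    have h3 : (w * (d₀ : ℂ)) * (1 - ((q : ℂ) ^ 2)⁻¹) * G₂ m = 0 := by
      have : ((q : ℂ) ^ 3)⁻¹ * (q : ℂ) = ((q : ℂ) ^ 2)⁻¹ := by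
        field_simp
      linear_combination (-1 : ℂ) * e4 + (q : ℂ) * e2 + ((w * (d₀ : ℂ)) * G₂ m) * this
    have h4 : (1 - ((q : ℂ) ^ 2)⁻¹) ≠ 0 := by
      intro h
      apply hq2
      have : ((q : ℂ) ^ 2)⁻¹ = 1 := by linear_combination -h
      exact inv_eq_one.mp this
    rcases mul_eq_zero.mp h3 with h | h
    · exact absurd h (mul_ne_zero hwd h4)
    · exact h
  · -- `q ∥ L₀`
    have he1' : e = 1 := h1
    have hA' : A = X ^ 2 - Polynomial.C (qCoeff g₀ q) * X ^ 3 := by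
      rw [hA, hP]
      ring
    have hB' : B = Polynomial.C (w * (d₀ : ℂ)) * X ^ 3
        - Polynomial.C (w * (d₀ : ℂ) * (qCoeff g₀ q * ((q : ℂ) ^ 2)⁻¹)) * X ^ 2 := by
      rw [hB, hPr, he1', Polynomial.C_mul (a := w * (d₀ : ℂ))]
      ring
    have e2 := hext 2 m hm
    have e3 := hext 3 m hm
    rw [hA', hB'] at e2 e3
    simp only [coeff_sub, coeff_C_mul, coeff_X_pow] at e2 e3
    norm_num at e2 e3
    -- `e2 : G₁ m = - w d₀ a q⁻² G₂ m`, `e3 : - a G₁ m = w d₀ G₂ m`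
    have h3 : (w * (d₀ : ℂ)) * (1 - ((q : ℂ) ^ 2)⁻¹) * G₂ m = 0 := by
      linear_combination (-1 : ℂ) * e3 + (-qCoeff g₀ q) * e2 +
        ((w * (d₀ : ℂ)) * ((q : ℂ) ^ 2)⁻¹ * G₂ m) * ha2
    have h4 : (1 - ((q : ℂ) ^ 2)⁻¹) ≠ 0 := by
      intro h
      apply hq2
      have : ((q : ℂ) ^ 2)⁻¹ = 1 := by linear_combination -h
      exact inv_eq_one.mp this
    rcases mul_eq_zero.mp h3 with h | h
    · exact absurd h (mul_ne_zero hwd h4)
    · exact h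
  · omega

/-- **TW-NS, part A, consumer form**: the Prelude-newform attached to a trace-new normalized
eigenform `F` of level `C`, `q² ∥ C`, has level `M ∣ C` with `v_q(M) = 2` (so that the frozen
statement S36 applies to it at `q`). -/
theorem exists_newform_factorization_eq_two {q : ℕ} (hq : q.Prime) {C : ℕ} [NeZero C]
    (hC : C.factorization q = 2)
    (F F' : CuspForm (Gamma0 C) 2) (hF : F.IsNormalizedEigenform)
    (hF' : (⇑F' : ℍ → ℂ) = ⇑F ∣[(2 : ℤ)] frickeMatrix C)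
    (hFq : qCoeff F q = 0) (hF'q : ∀ n : ℕ, q ∣ n → qCoeff F' n = 0) :
    ∃ (M : ℕ) (_ : NeZero M) (g : CuspForm (Gamma0 M) 2), g.IsNewform ∧ M ∣ C ∧
      M.factorization q = 2 ∧
      ∀ ℓ : ℕ, ℓ.Prime → ¬ ℓ ∣ C → qCoeff g ℓ = qCoeff F ℓ := by
  have hC0 : C ≠ 0 := NeZero.ne C
  obtain ⟨M, hMC, g, hg, hag⟩ := Fermat.Agent.Lib.Newform.H958.descent C F hF
  have hM0 : M ≠ 0 := fun h => hC0 (by rw [h] at hMC; exact zero_dvd_iff.mp hMC)
  haveI : NeZero M := ⟨hM0⟩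
  refine ⟨M, ⟨hM0⟩, g, hg, hMC, ?_, hag⟩
  have h2 : q ^ 2 ∣ M := twistNew_sq_dvd hq hC F F' hF hF' hFq hF'q g hg C.primeFactors
    fun ℓ hℓ hℓC => hag ℓ hℓ fun h => hℓC (Nat.mem_primeFactors.mpr ⟨hℓ, h, hC0⟩)
  have h3 : 2 ≤ M.factorization q := (hq.pow_dvd_iff_le_factorization hM0).mp h2
  have h4 : M.factorization q ≤ C.factorization q :=
    (Nat.factorization_le_iff_dvd hM0 hC0).mpr hMC q
  omega

end Fermat.Agent.S59.TW.H54
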